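import Fermat.Agent.Lib.RR.Duality

/-!
# RR task R9: the Riemann-Roch theorem and its standard corollaries.
-/

set_option autoImplicit false

namespace Fermat.Agent.Lib.RR

open AlgebraicCurve

variable {K F : Type*} [Field K] [Field F] [Algebra K F] [IsFF K F]

/-- Riemann-Roch. -/
theorem IsCanonical.riemann_roch {W : Divisor K F} (hW : IsCanonical W) (D : Divisor K F) :
    (ell D : ℤ) = Divisor.degree D + ell (0 : Divisor K F) - genusFF K F + ell (W - D) := by
  have h := riemann_roch_h1 D
  rw [hW D] at h
  linarith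

theorem IsCanonical.ell_eq {W : Divisor K F} (hW : IsCanonical W) : ell W = genusFF K F := by
  have h := hW 0
  rw [sub_zero, h1_zero] at h
  exact h.symm

theorem IsCanonical.degree_eq {W : Divisor K F} (hW : IsCanonical W) :
    Divisor.degree W = 2 * genusFF K F - 2 * ell (0 : Divisor K F) := by
  have h := hW.riemann_roch W
  rw [sub_self, hW.ell_eq] at h
  linarith

theorem h1_eq_zero_of_lt_degree {D : Divisor K F}
    (h : 2 * (genusFF K F : ℤ) - 2 * ell (0 : Divisor K F) < Divisor.degree D) : h1 D = 0 := by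
  obtain ⟨W, hW⟩ := exists_isCanonical (K := K) (F := F)
  rw [hW D]
  apply ell_eq_zero_of_degree_neg
  rw [map_sub, hW.degree_eq]
  linarith

theorem ell_eq_of_lt_degree {D : Divisor K F}
    (h : 2 * (genusFF K F : ℤ) - 2 * ell (0 : Divisor K F) < Divisor.degree D) :
    (ell D : ℤ) = Divisor.degree D + ell (0 : Divisor K F) - genusFF K F := by
  have h1 := riemann_roch_h1 D
  rw [h1_eq_zero_of_lt_degree h] at h1
  simpa using h1

/-- Riemann-Roch over an algebraically closed constant field. -/
theorem riemann_roch [IsAlgClosed K] : ∃ W : Divisor K F,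
    Divisor.degree W = 2 * genusFF K F - 2 ∧ ell W = genusFF K F ∧
    ∀ D : Divisor K F, (ell D : ℤ) = Divisor.degree D + 1 - genusFF K F + ell (W - D) := by
  obtain ⟨W, hW⟩ := exists_isCanonical (K := K) (F := F)
  refine ⟨W, ?_, hW.ell_eq, fun D => ?_⟩
  · have := hW.degree_eq
    rw [ell_zero] at this
    simpa using this
  · have := hW.riemann_roch D
    rw [ell_zero] at this
    simpa using this

theorem ell_eq_of_lt_degree' [IsAlgClosed K] {D : Divisor K F}
    (h : 2 * (genusFF K F : ℤ) - 2 < Divisor.degree D) :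
    (ell D : ℤ) = Divisor.degree D + 1 - genusFF K F := by
  have h0 : ell (0 : Divisor K F) = 1 := ell_zero
  have := ell_eq_of_lt_degree (D := D) (by rw [h0]; simpa using h)
  rw [h0] at this
  simpa using this

/-- A divisor of degree `≥ g` is linearly equivalent to an effective one
(here `ℓ(0) ≥ 1` is enough). -/
theorem exists_effective {D : Divisor K F} (h : (genusFF K F : ℤ) ≤ Divisor.degree D) :
    ∃ f : F, f ≠ 0 ∧ 0 ≤ divOf f + D := by
  have h1 := riemann_ineq D
  have h0 : 1 ≤ ell (0 : Divisor K F) := one_le_ell_zero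
  have hpos : 0 < ell D := by
    have : (0 : ℤ) < ell D := by
      have h0' : (1 : ℤ) ≤ ell (0 : Divisor K F) := by exact_mod_cast h0
      linarith
    exact_mod_cast this
  obtain ⟨f, hf, hfD⟩ := ell_pos_iff.1 hpos
  refine ⟨f, hf, ?_⟩
  rcases mem_L_iff.1 hfD with h | h
  · exact absurd h hf
  · exact h

/-- A divisor of degree `0` with `ℓ(D) > 0` is principal: `D = -div f`. -/
theorem eq_neg_divOf_of_degree_zero {D : Divisor K F} (hd : Divisor.degree D = 0) {f : F}
    (hf : f ≠ 0) (hfD : f ∈ riemannRochSpace D) : D = -divOf f := by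
  have h : 0 ≤ divOf f + D := by
    rcases mem_L_iff.1 hfD with h | h
    · exact absurd h hf
    · exact h
  have hz : divOf f + D = 0 := by
    apply eq_zero_of_nonneg_of_degree h
    rw [map_add, degree_divOf, hd, add_zero]
  exact eq_neg_of_add_eq_zero_right hz

/-- `ℓ(D) ≤ deg D + ℓ(0)` for `deg D ≥ 0`. -/
theorem ell_le_degree_add {D : Divisor K F} (h : 0 ≤ Divisor.degree D) :
    (ell D : ℤ) ≤ Divisor.degree D + ell (0 : Divisor K F) := by
  by_cases hpos : 0 < ell D
  · obtain ⟨f, hf, hfD⟩ := ell_pos_iff.1 hpos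
    have hE : 0 ≤ D + divOf f := by
      rcases mem_L_iff.1 hfD with h | h
      · exact absurd h hf
      · rwa [add_comm] at h
    have h1 := ell_le_of_le hE
    rw [ell_add_divOf D hf, map_add, degree_divOf, map_zero] at h1
    linarith
  · have h0 : ell D = 0 := by omega
    rw [h0]
    have : (0 : ℤ) ≤ ell (0 : Divisor K F) := by positivity
    push_cast
    linarith

end Fermat.Agent.Lib.RR
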