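import Fermat.Agent.Lib.RR.Riemann
import Fermat.Agent.S24.PrincipalDegree
import Fermat.Prelude.Def_AlgebraicCurve_IsCurveOver

/-!
# RR task R10: the hypotheses of S27 (`IsAlgClosed`, `CharZero`, `IsCurveOver`, `EssFiniteType`)
give `IsFF`.
-/

set_option autoImplicit false

namespace Fermat.Agent.Lib.RR

open AlgebraicCurve IntermediateField

variable {K F : Type*} [Field K] [Field F] [Algebra K F]

theorem isFF_of_transcendental [IsAlgClosed K] [CharZero K] (x : F) (hx : Transcendental K x)
    [FiniteDimensional K⟮x⟯ F] : IsFF K F := by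
  classical
  have hP : HasPrincipalDivisors K F := S24.hasPrincipalDivisors x hx
  have hdeg : ∀ v : Place K F, v.deg = 1 := S24.place_deg_eq_one x hx
  have : FiniteDimensional K⟮x⁻¹⟯ F := by rw [S24.adjoin_inv_eq]; infer_instance
  obtain ⟨Z1, hZ1, hs1⟩ := S24.exists_finset_zeros x⁻¹ (S24.transcendental_inv hx)
  have hpre : IsPreFF K F := by
    refine { hP with finiteResidue := ?_, nonempty := ?_ }
    · intro v
      apply Module.finite_of_finrank_pos
      have := hdeg v
      rw [Place.deg] at this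
      omega
    · by_contra hne
      have hZ : Z1 = ∅ := by
        rw [Finset.eq_empty_iff_forall_notMem]
        intro v _
        exact hne ⟨v⟩
      rw [hZ, Finset.sum_empty] at hs1
      have : 0 < Module.finrank K⟮x⁻¹⟯ F := Module.finrank_pos
      omega
  let B : Divisor K F := Finsupp.onFinset Z1 (fun v => max 0 (-v.ord x)) (by
    intro v hv
    rw [hZ1, v.ord_inv]
    by_contra hcon
    apply hv
    omega)
  have hB : ∀ v, B v = max 0 (-v.ord x) := fun v => rfl
  refine isFF_of_var x hx B hB ?_
  rw [S24.degree_eq_sum_of_deg_one hdeg B Z1 Finsupp.support_onFinset_subset]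
  have h2 : ∑ v ∈ Z1, B v = ∑ v ∈ Z1, v.ord x⁻¹ := by
    refine Finset.sum_congr rfl fun v hv => ?_
    rw [hZ1, v.ord_inv] at hv
    rw [hB, v.ord_inv]
    omega
  rw [h2, hs1, S24.adjoin_inv_eq]

theorem exists_transcendental_finiteDimensional [CharZero K] [IsCurveOver K F]
    [Algebra.EssFiniteType K F] :
    ∃ x : F, Transcendental K x ∧ FiniteDimensional K⟮x⟯ F := by
  classical
  -- a non-zero differential `D x`
  have h1 : ∃ x : F, KaehlerDifferential.D K F x ≠ 0 := by
    by_contra hcon
    push Not at hcon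
    have hspan := KaehlerDifferential.span_range_derivation K F
    have : Submodule.span F (Set.range (KaehlerDifferential.D K F)) = ⊥ := by
      rw [Submodule.span_eq_bot]
      rintro _ ⟨x, rfl⟩
      exact hcon x
    rw [this] at hspan
    have hnt : Nontrivial Ω[F⁄K] := inferInstance
    exact (bot_ne_top (α := Submodule F Ω[F⁄K])) hspan
  obtain ⟨x, hx⟩ := h1
  have hmap : KaehlerDifferential.D K F x =
      KaehlerDifferential.map K K K⟮x⟯ F
        (KaehlerDifferential.D K K⟮x⟯ ⟨x, mem_adjoin_simple_self K x⟩) := by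
    rw [KaehlerDifferential.map_D]; rfl
  refine ⟨x, ?_, ?_⟩
  · intro halg
    have : Algebra.IsAlgebraic K K⟮x⟯ := IntermediateField.isAlgebraic_adjoin_simple halg.isIntegral
    have : Algebra.IsSeparable K K⟮x⟯ := inferInstance
    have : Algebra.FormallyUnramified K K⟮x⟯ := Algebra.FormallyUnramified.of_isSeparable K K⟮x⟯
    apply hx
    rw [hmap, Subsingleton.elim (KaehlerDifferential.D K K⟮x⟯ ⟨x, mem_adjoin_simple_self K x⟩) 0,
      map_zero]
  · have hker : KaehlerDifferential.D K F x ∈
        LinearMap.ker (KaehlerDifferential.map K K⟮x⟯ F F) := by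
      rw [← KaehlerDifferential.range_mapBaseChange]
      refine ⟨1 ⊗ₜ KaehlerDifferential.D K K⟮x⟯ ⟨x, mem_adjoin_simple_self K x⟩, ?_⟩
      rw [KaehlerDifferential.mapBaseChange_tmul, one_smul, hmap]
    have hfr : Module.finrank F Ω[F⁄K] = 1 := IsCurveOver.finrank_kaehler
    have htop : LinearMap.ker (KaehlerDifferential.map K K⟮x⟯ F F) = ⊤ := by
      rw [eq_top_iff]
      intro ω _
      obtain ⟨c, hc⟩ := (finrank_eq_one_iff_of_nonzero' _ hx).mp hfr ω
      rw [← hc]
      exact Submodule.smul_mem _ c hker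
    have hsub : Subsingleton Ω[F⁄K⟮x⟯] := by
      refine ⟨fun a b => ?_⟩
      obtain ⟨a', rfl⟩ := KaehlerDifferential.map_surjective K K⟮x⟯ F a
      obtain ⟨b', rfl⟩ := KaehlerDifferential.map_surjective K K⟮x⟯ F b
      have ha : a' ∈ LinearMap.ker (KaehlerDifferential.map K K⟮x⟯ F F) := by rw [htop]; trivial
      have hb : b' ∈ LinearMap.ker (KaehlerDifferential.map K K⟮x⟯ F F) := by rw [htop]; trivial
      rw [LinearMap.mem_ker.mp ha, LinearMap.mem_ker.mp hb]
    have : Algebra.FormallyUnramified K⟮x⟯ F := ⟨hsub⟩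
    have : Algebra.EssFiniteType K⟮x⟯ F := Algebra.EssFiniteType.of_comp K K⟮x⟯ F
    exact Algebra.FormallyUnramified.finite_of_free (R := K⟮x⟯) (S := F)

instance instIsFF [IsAlgClosed K] [CharZero K] [IsCurveOver K F] [Algebra.EssFiniteType K F] :
    IsFF K F := by
  obtain ⟨x, hx, hfd⟩ := exists_transcendental_finiteDimensional (K := K) (F := F)
  exact isFF_of_transcendental x hx

end Fermat.Agent.Lib.RR
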