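import Fermat.Agent.Lib.RR.Basic

/-!
# RR task R4: invariance under linear equivalence.
Multiplication by `f` maps `L(D + div f)` onto `L(D)`, `𝔸(D + div f)` onto `𝔸(D)`, and preserves
the principal repartitions.
-/

set_option autoImplicit false

namespace Fermat.Agent.Lib.RR

open AlgebraicCurve

variable {K F : Type*} [Field K] [Field F] [Algebra K F] [HasPrincipalDivisors K F]

theorem linEquiv_aux (D : Divisor K F) {f : F} (hf : f ≠ 0) (g : F) (v : Place K F) :
    (f * g = 0 ∨ -D v ≤ v.ord (f * g)) ↔ (g = 0 ∨ -(D + divOf f : Divisor K F) v ≤ v.ord g) := by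
  rcases eq_or_ne g 0 with rfl | hg
  · simp
  · rw [or_iff_right (mul_ne_zero hf hg), or_iff_right hg, v.ord_mul hf hg, Finsupp.add_apply,
      divOf_apply]
    constructor <;> intro h <;> omega

theorem mul_mem_L_iff (D : Divisor K F) {f : F} (hf : f ≠ 0) (g : F) :
    f * g ∈ riemannRochSpace D ↔ g ∈ riemannRochSpace (D + divOf f) := by
  rw [mem_riemannRochSpace_iff, mem_riemannRochSpace_iff]
  exact forall_congr' fun v => linEquiv_aux D hf g v

theorem smul_mem_repartitionsOf_iff (D : Divisor K F) {f : F} (hf : f ≠ 0)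
    (α : ↥(repartitions K F)) :
    f • α ∈ repartitionsOf D ↔ α ∈ repartitionsOf (D + divOf f) := by
  rw [mem_repartitionsOf_iff, mem_repartitionsOf_iff]
  exact forall_congr' fun v => linEquiv_aux D hf ((α : Place K F → F) v) v

theorem smul_mem_principalRepartitions_iff {f : F} (hf : f ≠ 0) (α : ↥(repartitions K F)) :
    f • α ∈ principalRepartitions K F ↔ α ∈ principalRepartitions K F := by
  rw [mem_principalRepartitions_iff, mem_principalRepartitions_iff]
  constructor
  · rintro ⟨c, hc⟩
    refine ⟨f⁻¹ * c, ?_⟩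
    funext v
    have h := congrFun hc v
    have h' : f * (α : Place K F → F) v = c := h
    rw [← h', inv_mul_cancel_left₀ hf]
  · rintro ⟨c, hc⟩
    refine ⟨f * c, ?_⟩
    funext v
    have h := congrFun hc v
    show f * (α : Place K F → F) v = f * c
    rw [h]

theorem exists_L_equiv (D : Divisor K F) {f : F} (hf : f ≠ 0) :
    Nonempty (riemannRochSpace (D + divOf f) ≃ₗ[K] riemannRochSpace D) :=
  ⟨{ toFun := fun g => ⟨f * g.1, (mul_mem_L_iff D hf g.1).2 g.2⟩
     map_add' := fun g g' => Subtype.ext (mul_add f g.1 g'.1)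
     map_smul' := fun c g => Subtype.ext (mul_smul_comm c f g.1)
     invFun := fun g => ⟨f⁻¹ * g.1, (mul_mem_L_iff D hf _).1 (by
       rw [mul_inv_cancel_left₀ hf]; exact g.2)⟩
     left_inv := fun g => Subtype.ext (inv_mul_cancel_left₀ hf g.1)
     right_inv := fun g => Subtype.ext (mul_inv_cancel_left₀ hf g.1) }⟩

/-- Multiplication by `f ≠ 0` as a `K`-linear automorphism of the repartitions. -/
noncomputable def linEquiv_smul {f : F} (hf : f ≠ 0) :
    ↥(repartitions K F) ≃ₗ[K] ↥(repartitions K F) where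
  toFun α := f • α
  map_add' α β := smul_add f α β
  map_smul' c α := by
    apply Subtype.ext
    funext v
    exact mul_smul_comm c f ((α : Place K F → F) v)
  invFun α := f⁻¹ • α
  left_inv α := inv_smul_smul₀ hf α
  right_inv α := smul_inv_smul₀ hf α

theorem exists_H1_equiv (D : Divisor K F) {f : F} (hf : f ≠ 0) :
    Nonempty (H1 (D + divOf f) ≃ₗ[K] H1 D) := by
  refine ⟨Submodule.Quotient.equiv _ _ (linEquiv_smul hf) ?_⟩
  rw [Submodule.map_sup]
  congr 1
  · ext α
    rw [Submodule.map_equiv_eq_comap_symm, Submodule.mem_comap]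
    show f⁻¹ • α ∈ repartitionsOf (D + divOf f) ↔ _
    rw [← smul_mem_repartitionsOf_iff D hf, smul_inv_smul₀ hf]
  · ext α
    rw [Submodule.map_equiv_eq_comap_symm, Submodule.mem_comap]
    show f⁻¹ • α ∈ principalRepartitions K F ↔ _
    rw [smul_mem_principalRepartitions_iff (inv_ne_zero hf)]

theorem ell_add_divOf (D : Divisor K F) {f : F} (hf : f ≠ 0) : ell (D + divOf f) = ell D :=
  (exists_L_equiv D hf).some.finrank_eq

theorem h1_add_divOf (D : Divisor K F) {f : F} (hf : f ≠ 0) : h1 (D + divOf f) = h1 D :=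
  (exists_H1_equiv D hf).some.finrank_eq

end Fermat.Agent.Lib.RR
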