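import Fermat.Agent.Lib.RR.LFinite
import Fermat.Agent.Lib.RR.LinEquiv

/-!
# RR task R5: Riemann's inequality: `deg D - ℓ(D)` is bounded above.

`x, B` as in `exists_bound_multiples_of_var`, `n = [F : K(x)]`, `u₁..uₙ` a basis of `F / K(x)`,
`C ≥ 0` with `div uⱼ ≥ -C`. Then `xⁱ uⱼ ∈ L(l B + C)` (`0 ≤ i ≤ l`) are `K`-independent, so
`ℓ(l B) ≥ ℓ(l B + C) - deg C ≥ n (l + 1) - deg C ≥ l deg B + n - deg C`.
`deg B > 0` since otherwise `B = 0`, `xⁱ ∈ L(0)` for all `i`. For arbitrary `D`, with `D⁺ ≥ D, 0`:
`ℓ(l B - D⁺) ≥ ℓ(l B) - deg D⁺ > 0` for `l` large, so `D⁺ - div z ≤ l B` for some `z ≠ 0`;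
conclude by monotonicity (`ell_le_of_le`) and invariance (`ell_add_divOf`).
-/

set_option autoImplicit false

namespace Fermat.Agent.Lib.RR

open AlgebraicCurve

variable {K F : Type*} [Field K] [Field F] [Algebra K F] [IsPreFF K F]

omit [IsPreFF K F] in
/-- A finite family of divisors is bounded below by `-C` for an effective `C`. -/
theorem riemann_exists_common_bound {ι : Type*} [Fintype ι] (D : ι → Divisor K F) :
    ∃ C : Divisor K F, 0 ≤ C ∧ ∀ j, 0 ≤ D j + C := by
  classical
  refine ⟨∑ j, (D j)⁻, Finset.sum_nonneg fun j _ => negPart_nonneg _, fun j => ?_⟩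
  have h1 : (D j)⁻ ≤ ∑ j, (D j)⁻ :=
    Finset.single_le_sum (f := fun j => (D j)⁻) (fun i _ => negPart_nonneg _) (Finset.mem_univ j)
  have h2 : 0 ≤ D j + (D j)⁻ := by
    have : D j + (D j)⁻ = (D j)⁺ := (sub_eq_iff_eq_add.1 (posPart_sub_negPart (D j))).symm
    rw [this]
    exact posPart_nonneg _
  exact h2.trans (add_le_add_right h1 _)

omit [IsPreFF K F] in
/-- The powers of a transcendental element are linearly independent. -/
theorem riemann_linearIndependent_pow {S : Type*} [CommRing S] [Algebra K S] {x : S}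
    (hx : Transcendental K x) : LinearIndependent K (fun i : ℕ => x ^ i) := by
  have h1 : LinearIndependent K (fun i : ℕ => (Polynomial.monomial i (1 : K))) := by
    have := (Polynomial.basisMonomials K).linearIndependent
    simpa [Polynomial.coe_basisMonomials] using this
  have h2 := h1.map' (Polynomial.aeval x).toLinearMap
    (LinearMap.ker_eq_bot.2 (transcendental_iff_injective.1 hx))
  have h3 : (⇑(Polynomial.aeval x).toLinearMap ∘ fun i : ℕ => (Polynomial.monomial i (1 : K)))
      = fun i : ℕ => x ^ i := by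
    funext i
    simp
  rwa [h3] at h2

omit [IsPreFF K F] in
/-- `xⁱ uⱼ` are `K`-independent when `x` is transcendental and the `uⱼ` are `K(x)`-independent. -/
theorem riemann_linearIndependent_mul {x : F} (hx : Transcendental K x) {ι : Type*} {u : ι → F}
    (hu : LinearIndependent (IntermediateField.adjoin K {x}) u) :
    LinearIndependent K (fun p : ℕ × ι => x ^ p.1 * u p.2) := by
  have hX : Transcendental K
      (⟨x, IntermediateField.mem_adjoin_simple_self K x⟩ : IntermediateField.adjoin K {x}) := by
    intro halg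
    apply hx
    have := halg.algebraMap (A := F)
    simpa using this
  have h := linearIndependent_smul (riemann_linearIndependent_pow hX) hu
  have heq : (fun p : ℕ × ι =>
      ((⟨x, IntermediateField.mem_adjoin_simple_self K x⟩ : IntermediateField.adjoin K {x}) ^ p.1)
        • u p.2) = fun p : ℕ × ι => x ^ p.1 * u p.2 := by
    funext p
    rw [Algebra.smul_def]
    rfl
  rwa [heq] at h

/-- The multiples of the pole divisor of `x`. -/
theorem exists_bound_multiples_of_var (x : F) (hx : Transcendental K x)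
    [hfin : FiniteDimensional (IntermediateField.adjoin K {x}) F] (B : Divisor K F)
    (hB : ∀ v, B v = max 0 (-v.ord x))
    (hdeg : Divisor.degree B ≤ (Module.finrank (IntermediateField.adjoin K {x}) F : ℤ)) :
    0 < Divisor.degree B ∧ ∃ γ : ℤ, ∀ l : ℕ, Divisor.degree (l • B) - ell (l • B) ≤ γ := by
  classical
  have hx0 : x ≠ 0 := by
    rintro rfl
    exact hx (isAlgebraic_zero)
  have hB0 : 0 ≤ B := by
    intro v
    rw [hB v]
    exact le_max_left _ _
  set Kx := IntermediateField.adjoin K {x} with hKx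
  set n := Module.finrank Kx F with hn
  let b := Module.finBasis Kx F
  obtain ⟨C, hC0, hC⟩ := riemann_exists_common_bound (fun j => divOf (K := K) (b j))
  refine ⟨?_, Divisor.degree C, ?_⟩
  · -- positivity of the degree
    rcases (degree_nonneg hB0).lt_or_eq with h | h
    · exact h
    · exfalso
      have hBz : B = 0 := eq_zero_of_nonneg_of_degree hB0 h.symm
      apply hx
      apply isAlgebraic_of_mem_L_zero
      rw [mem_L_iff]
      right
      intro v
      have h1 := hB v
      rw [hBz] at h1
      simp only [Finsupp.coe_zero, Pi.zero_apply, add_zero, divOf_apply] at h1 ⊢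
      have := le_max_right 0 (-v.ord x)
      omega
  · intro l
    have hind : LinearIndependent K
        (fun p : Fin (l + 1) × Fin n => x ^ (p.1 : ℕ) * b p.2) :=
      (riemann_linearIndependent_mul hx b.linearIndependent).comp
        (fun p : Fin (l + 1) × Fin n => ((p.1 : ℕ), p.2))
        (fun p q h => by
          have h1 := congrArg Prod.fst h
          have h2 := congrArg Prod.snd h
          exact Prod.ext (Fin.val_injective h1) h2)
    have hmem : ∀ p : Fin (l + 1) × Fin n,
        x ^ (p.1 : ℕ) * b p.2 ∈ riemannRochSpace (l • B + C) := by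
      intro p
      have hb0 : b p.2 ≠ 0 := b.ne_zero _
      rw [mem_L_iff]
      right
      rw [divOf_mul (pow_ne_zero _ hx0) hb0, divOf_pow]
      intro v
      have h1 := hC p.2 v
      have h2 := hB v
      have h3 : (p.1 : ℕ) ≤ l := Nat.lt_succ_iff.1 p.1.2
      simp only [Finsupp.coe_zero, Pi.zero_apply, Finsupp.add_apply, Finsupp.smul_apply,
        divOf_apply, nsmul_eq_mul] at h1 ⊢
      have h4 : (0 : ℤ) ≤ ((p.1 : ℕ) : ℤ) * v.ord x + (l : ℤ) * B v := by
        rw [h2]
        have h3' : (((p.1 : ℕ) : ℤ)) ≤ (l : ℤ) := by exact_mod_cast h3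
        have h5 : (0 : ℤ) ≤ ((p.1 : ℕ) : ℤ) := by positivity
        rcases le_total 0 (v.ord x) with h | h
        · rw [max_eq_left (by omega)]
          have := mul_nonneg h5 h
          omega
        · rw [max_eq_right (by omega)]
          nlinarith
      linarith
    have hind' : LinearIndependent K
        (fun p : Fin (l + 1) × Fin n =>
          (⟨x ^ (p.1 : ℕ) * b p.2, hmem p⟩ : riemannRochSpace (l • B + C))) := by
      apply LinearIndependent.of_comp (riemannRochSpace (l • B + C)).subtype
      exact hind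
    have hcard := hind'.fintype_card_le_finrank
    rw [Fintype.card_prod, Fintype.card_fin, Fintype.card_fin] at hcard
    have hcard' : ((l : ℤ) + 1) * n ≤ ell (l • B + C) := by
      have : ((l + 1) * n : ℕ) ≤ ell (l • B + C) := hcard
      exact_mod_cast this
    have hle : l • B ≤ l • B + C := le_add_of_nonneg_right hC0
    have hmono := ell_le_of_le hle
    rw [map_add, map_nsmul] at hmono
    rw [map_nsmul]
    simp only [nsmul_eq_mul] at hmono ⊢
    have h6 : (l : ℤ) * Divisor.degree B ≤ (l : ℤ) * n :=
      mul_le_mul_of_nonneg_left hdeg (by positivity)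
    have h7 : (0 : ℤ) ≤ n := by positivity
    nlinarith

/-- The usual criterion. -/
theorem isFF_of_var (x : F) (hx : Transcendental K x)
    [FiniteDimensional (IntermediateField.adjoin K {x}) F] (B : Divisor K F)
    (hB : ∀ v, B v = max 0 (-v.ord x))
    (hdeg : Divisor.degree B ≤ (Module.finrank (IntermediateField.adjoin K {x}) F : ℤ)) :
    IsFF K F := by
  obtain ⟨h1, γ, h2⟩ := exists_bound_multiples_of_var x hx B hB hdeg
  exact { (inferInstance : IsPreFF K F) with riemann := ⟨B, γ, h1, h2⟩ }

omit [IsPreFF K F]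
variable [IsFF K F]

/-- Riemann's inequality. -/
theorem exists_bound : ∃ γ : ℤ, ∀ D : Divisor K F, Divisor.degree D - ell D ≤ γ := by
  classical
  obtain ⟨B, γ, hBdeg, hγ⟩ := IsFF.riemann (K := K) (F := F)
  refine ⟨γ, fun D => ?_⟩
  set E : Divisor K F := D⁺ with hE
  have hDE : D ≤ E := le_posPart D
  set l : ℕ := (γ + Divisor.degree E + 1).toNat with hl
  have hl' : γ + Divisor.degree E + 1 ≤ l := Int.self_le_toNat _
  have hle : l • B - E ≤ l • B := sub_le_self _ (posPart_nonneg D)
  have hmono := ell_le_of_le hle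
  have hγl := hγ l
  rw [map_sub] at hmono
  have hlB : (l : ℤ) ≤ Divisor.degree (l • B) := by
    rw [map_nsmul, nsmul_eq_mul]
    have : (0 : ℤ) ≤ l := by positivity
    nlinarith
  have hpos : 0 < ell (l • B - E) := by
    have : (0 : ℤ) < ell (l • B - E) := by linarith
    exact_mod_cast this
  obtain ⟨z, hz0, hz⟩ := ell_pos_iff.1 hpos
  rw [mem_L_iff] at hz
  rcases hz with hz | hz
  · exact absurd hz hz0
  have hD : D ≤ l • B + divOf z := by
    refine hDE.trans ?_
    have : 0 ≤ (l • B + divOf z) - E := by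
      have heq : (l • B + divOf z) - E = divOf z + (l • B - E) := by abel
      rw [heq]
      exact hz
    exact sub_nonneg.1 this
  have hfin := ell_le_of_le hD
  rw [ell_add_divOf _ hz0, map_add, degree_divOf, add_zero] at hfin
  linarith

/-- There is a divisor where `deg - ℓ` is maximal. -/
theorem exists_max : ∃ D₀ : Divisor K F, ∀ D : Divisor K F,
    Divisor.degree D - ell D ≤ Divisor.degree D₀ - ell D₀ := by
  obtain ⟨γ, hγ⟩ := exists_bound (K := K) (F := F)
  obtain ⟨ub, ⟨D₀, hD₀⟩, hub⟩ := Int.exists_greatest_of_bdd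
    (P := fun z : ℤ => ∃ D : Divisor K F, Divisor.degree D - ell D = z)
    ⟨γ, by rintro z ⟨D, rfl⟩; exact hγ D⟩ ⟨_, 0, rfl⟩
  exact ⟨D₀, fun D => by rw [hD₀]; exact hub _ ⟨D, rfl⟩⟩

end Fermat.Agent.Lib.RR
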