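import Fermat.Agent.Lib.RR.Defs

/-!
# RR task R1: basic facts (all short).
-/

set_option autoImplicit false

namespace Fermat.Agent.Lib.RR

open AlgebraicCurve

variable {K F : Type*} [Field K] [Field F] [Algebra K F]

theorem deg_pos [IsPreFF K F] (v : Place K F) : 0 < v.deg := by
  unfold Place.deg
  exact Module.finrank_pos

theorem degree_pt (v : Place K F) : Divisor.degree (pt v) = v.deg := by
  simp [pt]

theorem Basic_degree_eq_sum (D : Divisor K F) :
    Divisor.degree D = D.sum fun v n => n * (v.deg : ℤ) := by
  simp [Divisor.degree, Finsupp.liftAddHom_apply]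

theorem degree_nonneg [IsPreFF K F] {D : Divisor K F} (h : 0 ≤ D) : 0 ≤ Divisor.degree D := by
  rw [Basic_degree_eq_sum]
  exact Finset.sum_nonneg fun v _ => mul_nonneg (h v) (Int.natCast_nonneg _)

theorem degree_mono [IsPreFF K F] {D D' : Divisor K F} (h : D ≤ D') :
    Divisor.degree D ≤ Divisor.degree D' := by
  have h1 : (0 : Divisor K F) ≤ D' - D := by
    intro v
    have := h v
    simp only [Finsupp.coe_zero, Pi.zero_apply, Finsupp.coe_sub, Pi.sub_apply]
    omega
  have := degree_nonneg h1
  rw [map_sub] at this
  omega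

/-- An effective divisor of degree `0` is `0`. -/
theorem eq_zero_of_nonneg_of_degree [IsPreFF K F] {D : Divisor K F} (h : 0 ≤ D)
    (hd : Divisor.degree D = 0) : D = 0 := by
  rw [Basic_degree_eq_sum, Finsupp.sum,
    Finset.sum_eq_zero_iff_of_nonneg
      (fun v _ => mul_nonneg (h v) (Int.natCast_nonneg _))] at hd
  ext v
  by_cases hv : v ∈ D.support
  · have h1 := hd v hv
    have h2 : (v.deg : ℤ) ≠ 0 := by
      have := deg_pos v
      omega
    exact (mul_eq_zero.mp h1).resolve_right h2
  · simpa using hv

theorem Basic_ord_nonneg_of_mem (v : Place K F) {f : F} (hf : f ∈ v.toValuationSubring) :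
    0 ≤ v.ord f := by
  rcases v.adicValuation_le_one_iff.mp (v.adicValuation_le_one_of_mem hf) with h | h
  · simp [h]
  · exact h

theorem Basic_ord_algebraMap (v : Place K F) (a : K) : v.ord (algebraMap K F a) = 0 := by
  have h1 := Basic_ord_nonneg_of_mem v (v.algebraMap_mem' a)
  have h2 := Basic_ord_nonneg_of_mem v (v.algebraMap_mem' a⁻¹)
  rw [map_inv₀, v.ord_inv] at h2
  omega

theorem divOf_mul [HasPrincipalDivisors K F] {f g : F} (hf : f ≠ 0) (hg : g ≠ 0) :
    divOf (K := K) (f * g) = divOf f + divOf g := by
  ext v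
  simp [Place.ord_mul v hf hg]

theorem divOf_inv [HasPrincipalDivisors K F] (f : F) : divOf (K := K) f⁻¹ = -divOf f := by
  ext v
  simp [Place.ord_inv]

theorem divOf_algebraMap [HasPrincipalDivisors K F] (a : K) :
    divOf (K := K) (algebraMap K F a) = 0 := by
  ext v
  simp [Basic_ord_algebraMap]

theorem divOf_pow [HasPrincipalDivisors K F] (f : F) (n : ℕ) :
    divOf (K := K) (f ^ n) = n • divOf f := by
  ext v
  have := v.ord_zpow f (n : ℤ)
  rw [zpow_natCast] at this
  simp [this]

theorem mem_L_iff [HasPrincipalDivisors K F] {D : Divisor K F} {f : F} :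
    f ∈ riemannRochSpace D ↔ f = 0 ∨ 0 ≤ divOf f + D := by
  rw [mem_riemannRochSpace_iff]
  constructor
  · intro h
    by_cases hf : f = 0
    · exact Or.inl hf
    · right
      intro v
      have := (h v).resolve_left hf
      simp only [Finsupp.coe_zero, Pi.zero_apply, Finsupp.coe_add, Pi.add_apply, divOf_apply]
      omega
  · rintro (h | h) v
    · exact Or.inl h
    · right
      have := h v
      simp only [Finsupp.coe_zero, Pi.zero_apply, Finsupp.coe_add, Pi.add_apply,
        divOf_apply] at this
      omega

theorem L_mono {D D' : Divisor K F} (h : D ≤ D') : riemannRochSpace D ≤ riemannRochSpace D' := by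
  intro f hf
  rw [mem_riemannRochSpace_iff] at hf ⊢
  intro v
  rcases hf v with h0 | h0
  · exact Or.inl h0
  · right
    have := h v
    omega

theorem algebraMap_mem_L_zero (a : K) : algebraMap K F a ∈ riemannRochSpace (0 : Divisor K F) := by
  rw [mem_riemannRochSpace_iff]
  intro v
  right
  simp [Basic_ord_algebraMap]

/-- `L(D) = 0` if `deg D < 0`. -/
theorem L_eq_bot_of_degree_neg [IsPreFF K F] {D : Divisor K F} (h : Divisor.degree D < 0) :
    riemannRochSpace D = ⊥ := by
  rw [eq_bot_iff]
  intro f hf
  rcases mem_L_iff.mp hf with h0 | h0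
  · simp [h0]
  · exfalso
    have := degree_nonneg h0
    rw [map_add, degree_divOf] at this
    omega

theorem Basic_ord_add_ge (v : Place K F) {f g : F} {n : ℤ} (hn : n ≤ 0)
    (hf : n ≤ v.ord f) (hg : n ≤ v.ord g) : n ≤ v.ord (f + g) := by
  have h1 : v.adicValuation f ≤ WithZero.exp (-n) :=
    v.adicValuation_le_exp_iff.mpr (Or.inr (by omega))
  have h2 : v.adicValuation g ≤ WithZero.exp (-n) :=
    v.adicValuation_le_exp_iff.mpr (Or.inr (by omega))
  have h3 : v.adicValuation (f + g) ≤ WithZero.exp (-n) :=
    (Valuation.map_add _ _ _).trans (max_le h1 h2)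
  rcases v.adicValuation_le_exp_iff.mp h3 with h | h
  · rw [h]; simpa using hn
  · omega

theorem Basic_ord_mul_nonneg (v : Place K F) {f g : F}
    (hf : 0 ≤ v.ord f) (hg : 0 ≤ v.ord g) : 0 ≤ v.ord (f * g) := by
  rcases eq_or_ne f 0 with rfl | hf0
  · simp
  rcases eq_or_ne g 0 with rfl | hg0
  · simp
  rw [v.ord_mul hf0 hg0]
  omega

/-- With finiteness of poles of elements of `F`, the subalgebra of repartitions is exactly the set
of families with finitely many poles. -/
theorem mem_repartitions_iff [HasPrincipalDivisors K F] {α : Place K F → F} :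
    α ∈ repartitions K F ↔ {v : Place K F | v.ord (α v) < 0}.Finite := by
  refine ⟨fun h => ?_, mem_repartitions_of_finite_ord⟩
  unfold repartitions at h
  induction h using Algebra.adjoin_induction with
  | mem x hx =>
    have hx : {v : Place K F | ¬v.adicValuation (x v) ≤ 1}.Finite := hx
    rwa [show {v : Place K F | ¬v.adicValuation (x v) ≤ 1}
        = {v : Place K F | v.ord (x v) < 0} from
      Set.ext fun v => v.not_adicValuation_le_one_iff] at hx
  | algebraMap r =>
    refine (divOf (K := K) r).support.finite_toSet.subset fun v hv => ?_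
    rw [Finset.mem_coe, Finsupp.mem_support_iff, divOf_apply]
    have hv' : v.ord r < 0 := hv
    omega
  | add x y _ _ hx hy =>
    refine (hx.union hy).subset fun v hv => ?_
    by_contra hcon
    simp only [Set.mem_union, Set.mem_ofPred_eq, not_or, not_lt] at hcon
    have hv' : v.ord (x v + y v) < 0 := hv
    have := Basic_ord_add_ge v le_rfl hcon.1 hcon.2
    omega
  | mul x y _ _ hx hy =>
    refine (hx.union hy).subset fun v hv => ?_
    by_contra hcon
    simp only [Set.mem_union, Set.mem_ofPred_eq, not_or, not_lt] at hcon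
    have hv' : v.ord (x v * y v) < 0 := hv
    have := Basic_ord_mul_nonneg v hcon.1 hcon.2
    omega

theorem exists_le_mem_repartitionsOf [HasPrincipalDivisors K F] (α : ↥(repartitions K F))
    (D₀ : Divisor K F) : ∃ D : Divisor K F, D₀ ≤ D ∧ α ∈ repartitionsOf D := by
  classical
  have hfin := mem_repartitions_iff.mp α.2
  let E : Divisor K F := Finsupp.onFinset hfin.toFinset
    (fun v => max 0 (-v.ord ((α : Place K F → F) v))) (by
      intro v hv
      rw [Set.Finite.mem_toFinset, Set.mem_ofPred_eq]
      by_contra hcon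
      apply hv
      rw [max_eq_left]
      omega)
  refine ⟨D₀ ⊔ E, le_sup_left, ?_⟩
  rw [mem_repartitionsOf_iff]
  intro v
  right
  have h1 : E v ≤ (D₀ ⊔ E) v := (le_sup_right : E ≤ D₀ ⊔ E) v
  have h2 : E v = max 0 (-v.ord ((α : Place K F → F) v)) := rfl
  have h3 := le_max_right 0 (-v.ord ((α : Place K F → F) v))
  omega

theorem Basic_induction_nsmul {P : Divisor K F → Prop} {D : Divisor K F}
    (hstep : ∀ (E : Divisor K F) (v : Place K F), D ≤ E → P E → P (E + pt v))
    (E : Divisor K F) (v : Place K F) (hE : D ≤ E) (hP : P E) (n : ℕ) :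
    D ≤ E + n • pt v ∧ P (E + n • pt v) := by
  induction n with
  | zero => simpa using ⟨hE, hP⟩
  | succ n ih =>
    rw [succ_nsmul, ← add_assoc]
    exact ⟨ih.1.trans (le_add_pt _ _), hstep _ _ ih.1 ih.2⟩

/-- Upward induction on divisors. -/
theorem induction_le {P : Divisor K F → Prop} {D D' : Divisor K F} (h : D ≤ D') (h0 : P D)
    (hstep : ∀ (E : Divisor K F) (v : Place K F), D ≤ E → P E → P (E + pt v)) : P D' := by
  classical
  have key : ∀ E : Divisor K F, 0 ≤ E → D ≤ D + E ∧ P (D + E) := by
    intro E
    induction E using Finsupp.induction with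
    | zero => intro _; simpa using h0
    | single_add a b f ha hb ih =>
      intro hE
      have hfa : f a = 0 := by simpa using ha
      have hb0 : 0 ≤ b := by
        have := hE a
        simpa [hfa] using this
      have hf : 0 ≤ f := by
        intro w
        by_cases hw : w = a
        · subst hw; simp [hfa]
        · have := hE w
          simpa [Finsupp.single_apply, Ne.symm hw] using this
      obtain ⟨h1, h2⟩ := ih hf
      have h3 := Basic_induction_nsmul hstep (D + f) a h1 h2 b.toNat
      have h4 : b.toNat • pt a = Finsupp.single a b := by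
        rw [pt, Finsupp.smul_single]
        congr 1
        simp [hb0]
      rw [h4] at h3
      rwa [add_comm (Finsupp.single a b) f, ← add_assoc]
  have h1 : (0 : Divisor K F) ≤ D' - D := by
    intro v
    have := h v
    simp only [Finsupp.coe_zero, Pi.zero_apply, Finsupp.coe_sub, Pi.sub_apply]
    omega
  have := (key _ h1).2
  rwa [add_sub_cancel] at this

/-- Downward induction on divisors. -/
theorem induction_ge {P : Divisor K F → Prop} {D D' : Divisor K F} (h : D ≤ D') (h0 : P D')
    (hstep : ∀ (E : Divisor K F) (v : Place K F), E + pt v ≤ D' → P (E + pt v) → P E) : P D := by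
  have hneg : ∀ {A B : Divisor K F}, A ≤ B → -B ≤ -A := by
    intro A B hAB v
    have := hAB v
    simp only [Finsupp.coe_neg, Pi.neg_apply]
    omega
  have := induction_le (P := fun E => P (-E)) (D := -D') (D' := -D) (hneg h)
    (by simpa using h0) (by
      intro E v hE hP
      have h1 : -(E + pt v) + pt v = -E := by abel
      apply hstep (-(E + pt v)) v
      · rw [h1]
        simpa using hneg hE
      · rw [h1]
        exact hP)
  simpa using this

/-- A function of divisors which is invariant under adding a point is constant. -/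
theorem eq_of_forall_add_pt {X : Type*} (φ : Divisor K F → X)
    (h : ∀ (E : Divisor K F) (v : Place K F), φ (E + pt v) = φ E) (D D' : Divisor K F) :
    φ D = φ D' := by
  classical
  have key : ∀ {A B : Divisor K F}, A ≤ B → φ B = φ A := by
    intro A B hAB
    exact induction_le (P := fun E => φ E = φ A) hAB rfl
      (fun E v _ hE => (h E v).trans hE)
  exact (key (le_sup_left : D ≤ D ⊔ D')).symm.trans (key (le_sup_right : D' ≤ D ⊔ D'))

theorem H1map_surjective {D D' : Divisor K F} (h : D ≤ D') : Function.Surjective (H1map h) := by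
  intro x
  obtain ⟨α, rfl⟩ := Submodule.Quotient.mk_surjective _ x
  exact ⟨Submodule.Quotient.mk α, rfl⟩

theorem Basic_H1map_mk {D D' : Divisor K F} (h : D ≤ D') (α : ↥(repartitions K F)) :
    H1map h (Submodule.Quotient.mk α) = Submodule.Quotient.mk α := rfl

theorem H1map_comp {D D' D'' : Divisor K F} (h : D ≤ D') (h' : D' ≤ D'') :
    (H1map h').comp (H1map h) = H1map (h.trans h') := by
  apply LinearMap.ext
  intro x
  obtain ⟨α, rfl⟩ := Submodule.Quotient.mk_surjective _ x
  rw [LinearMap.comp_apply, Basic_H1map_mk, Basic_H1map_mk, Basic_H1map_mk]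

theorem H1map_mk {D D' : Divisor K F} (h : D ≤ D') (α : ↥(repartitions K F)) :
    H1map h (Submodule.Quotient.mk α) = Submodule.Quotient.mk α := rfl

end Fermat.Agent.Lib.RR
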