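import Fermat.Agent.Lib.RR.Main
import Fermat.Agent.S27.Hyp

/-!
# RR task R11: bridge to the contracts of project S27 (`Fermat/Agent/S27/Hyp.lean`).
-/

set_option autoImplicit false

namespace Fermat.Agent.Lib.RR

open AlgebraicCurve

variable {k F : Type*} [Field k] [Field F] [Algebra k F]

theorem ell_eq_S27_ell (D : Divisor k F) : ell D = Fermat.Agent.S27.ell D := rfl

theorem deg_eq_one_of_baseHyp (h : Fermat.Agent.S27.BaseHyp k F) (v : Place k F) : v.deg = 1 := by
  have hs := h.residue v
  have hb : Function.Bijective (algebraMap k v.ResidueField) :=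
    ⟨(algebraMap k v.ResidueField).injective, hs⟩
  let e : k ≃ₗ[k] v.ResidueField :=
    LinearEquiv.ofBijective (Algebra.linearMap k v.ResidueField) hb
  rw [Place.deg, ← e.finrank_eq, Module.finrank_self]

/-- Residue fields equal to `k` are finite; `deg B > 0` gives a place. -/
theorem isFF_of_curveHyp (h : Fermat.Agent.S27.CurveHyp k F) : IsFF k F := by
  obtain ⟨B, γ, hB, hγ⟩ := h.riemann
  have hP : HasPrincipalDivisors k F := h.principal
  have hpre : IsPreFF k F := by
    refine { hP with finiteResidue := ?_, nonempty := ?_ }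
    · intro v
      apply Module.finite_of_finrank_pos
      have := deg_eq_one_of_baseHyp h.toBaseHyp v
      rw [Place.deg] at this
      omega
    · by_contra hne
      have : B = 0 := by
        ext v
        exact absurd ⟨v⟩ hne
      rw [this, map_zero] at hB
      exact lt_irrefl _ hB
  refine { hpre with riemann := ⟨B, γ, hB, fun n => ?_⟩ }
  have := hγ n
  rw [map_nsmul, nsmul_eq_mul]
  exact this

/-- `instFiniteL`, `instFiniteH1`, `riemann_roch_h1` + `ell_zero_of_deg_eq_one`,
`exists_isCanonical`. -/
theorem rrPackage_of_curveHyp (h : Fermat.Agent.S27.CurveHyp k F) :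
    Fermat.Agent.S27.RRPackage k F := by
  have hFF : IsFF k F := isFF_of_curveHyp h
  obtain ⟨v⟩ := IsPreFF.nonempty (K := k) (F := F)
  have h0 : ell (0 : Divisor k F) = 1 :=
    ell_zero_of_deg_eq_one v (deg_eq_one_of_baseHyp h.toBaseHyp v)
  refine ⟨fun D => inferInstance, fun D => inferInstance, fun D => ?_, ?_⟩
  · have := riemann_roch_h1 D
    rw [h0] at this
    exact_mod_cast this
  · obtain ⟨W, hW⟩ := exists_isCanonical (K := k) (F := F)
    exact ⟨W, fun D => hW D⟩

end Fermat.Agent.Lib.RR
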