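import Fermat.Agent.Lib.RR.Bridge27
import Fermat.Agent.Lib.RR.Instances
import Fermat.Agent.S27.Model

/-!
# RR: the contracts `StmtRR` and `StmtK1` of project S27.
-/

set_option autoImplicit false

namespace Fermat.Agent.Lib.RR

open AlgebraicCurve

universe u v

theorem stmtRR : Fermat.Agent.S27.StmtRR.{u, v} := fun _ _ _ _ _ h => rrPackage_of_curveHyp h

theorem curveHyp_of_isFF {k : Type u} {F : Type v} [Field k] [Field F] [Algebra k F] [IsFF k F]
    (hres : ∀ v : Place k F, Function.Surjective (algebraMap k v.ResidueField)) :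
    Fermat.Agent.S27.CurveHyp k F := by
  obtain ⟨B, γ, hB, hγ⟩ := IsFF.riemann (K := k) (F := F)
  refine { principal := inferInstance, residue := hres, riemann := ⟨B, γ, hB, fun n => ?_⟩ }
  have := hγ n
  rw [map_nsmul, nsmul_eq_mul] at this
  exact this

theorem residue_surjective {k : Type u} {F : Type v} [Field k] [Field F] [Algebra k F]
    [IsAlgClosed k] [IsPreFF k F] (v : Place k F) :
    Function.Surjective (algebraMap k v.ResidueField) :=
  (IsAlgClosed.algebraMap_bijective_of_isIntegral (k := k)).2

theorem stmtK1 : Fermat.Agent.S27.StmtK1.{u, v} := by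
  intro K F _ _ _ _ _ _ _
  exact curveHyp_of_isFF residue_surjective

end Fermat.Agent.Lib.RR
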