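import Mathlib
import Fermat.Prelude.Def_AlgebraicCurve_Repartitions

/-!
# Riemann-Roch for the function fields of the Prelude: definitions

`K` any field, `F / K` a function field of one variable in the sense of the class `IsFF` below.
Objects of the Prelude: `Place K F`, `Divisor K F = Place K F →₀ ℤ`, `Divisor.degree`,
`riemannRochSpace D`, `repartitions K F`, `repartitionsOf D`, `principalRepartitions K F`,
`H1 D`, `genusFF K F = finrank K (H1 0)`.
-/

set_option autoImplicit false

namespace Fermat.Agent.Lib.RR

open AlgebraicCurve

variable (K F : Type*) [Field K] [Field F] [Algebra K F]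

/-- Weak hypothesis package: principal divisors exist and have degree `0`, residue fields are
finite over `K`, there is a place. -/
class IsPreFF : Prop extends HasPrincipalDivisors K F where
  finiteResidue : ∀ v : Place K F, Module.Finite K v.ResidueField
  nonempty : Nonempty (Place K F)

variable {K F}

instance instFiniteResidueField [IsPreFF K F] (v : Place K F) : Module.Finite K v.ResidueField :=
  IsPreFF.finiteResidue v

/-- `ℓ(D) = dim L(D)`. -/
noncomputable def ell (D : Divisor K F) : ℕ := Module.finrank K (riemannRochSpace D)

/-- `i(D) = dim H¹(D)`. -/
noncomputable def h1 (D : Divisor K F) : ℕ := Module.finrank K (H1 D)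

theorem h1_zero : h1 (0 : Divisor K F) = genusFF K F := rfl

variable (K F) in
/-- Hypothesis package: function field of one variable = `IsPreFF` + Riemann's inequality along the
multiples of one divisor of positive degree (see `isFF_of_var` in `Riemann.lean` for the usual
criterion `[F : K(x)] < ∞`). -/
class IsFF : Prop extends IsPreFF K F where
  riemann : ∃ (B : Divisor K F) (γ : ℤ), 0 < Divisor.degree B ∧
    ∀ n : ℕ, Divisor.degree (n • B) - (ell (n • B) : ℤ) ≤ γ

open Classical in
/-- The principal divisor of `f` (`0` for `f = 0`). -/
noncomputable def divOf [HasPrincipalDivisors K F] (f : F) : Divisor K F :=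
  if h : f ≠ 0 then (HasPrincipalDivisors.exists_divisor (K := K) f h).choose else 0

@[simp] theorem divOf_apply [HasPrincipalDivisors K F] (f : F) (v : Place K F) :
    divOf f v = v.ord f := by
  unfold divOf
  split_ifs with h
  · exact (HasPrincipalDivisors.exists_divisor (K := K) f h).choose_spec.1 v
  · have : f = 0 := by simpa using h
    simp [this]

@[simp] theorem degree_divOf [HasPrincipalDivisors K F] (f : F) :
    Divisor.degree (divOf (K := K) f) = 0 := by
  unfold divOf
  split_ifs with h
  · exact (HasPrincipalDivisors.exists_divisor (K := K) f h).choose_spec.2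
  · simp

/-- The divisor `1 · v`. -/
noncomputable abbrev pt (v : Place K F) : Divisor K F := Finsupp.single v 1

/-- The canonical map `H¹(D) → H¹(D')` for `D ≤ D'`. -/
noncomputable def H1map {D D' : Divisor K F} (h : D ≤ D') : H1 D →ₗ[K] H1 D' :=
  Submodule.mapQ _ _ LinearMap.id
    (by
      rw [Submodule.comap_id]
      exact sup_le_sup_right (repartitionsOf_mono h) _)

theorem le_add_pt (D : Divisor K F) (v : Place K F) : D ≤ D + pt v := by
  classical
  intro w
  simp only [Finsupp.add_apply]
  have : (0 : ℤ) ≤ pt v w := by
    unfold pt
    rw [Finsupp.single_apply]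
    split_ifs <;> simp
  omega

end Fermat.Agent.Lib.RR
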