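import Fermat.Agent.Lib.RR.WeilDiff

/-!
# RR task R8: duality `i(D) = ℓ(W - D)` (Stichtenoth, Section 1.5).
-/

set_option autoImplicit false

namespace Fermat.Agent.Lib.RR

open AlgebraicCurve

variable {K F : Type*} [Field K] [Field F] [Algebra K F]

theorem Duality.mem_weilDiff_of_vanishesOn {ω : ↥(repartitions K F) →ₗ[K] K} {D : Divisor K F}
    (h : VanishesOn ω D) : ω ∈ weilDiff K F := ⟨D, h⟩

theorem Duality.fsmul_zero_left (ω : ↥(repartitions K F) →ₗ[K] K) : fsmul (0 : F) ω = 0 := by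
  ext α
  simp

theorem Duality.vanishesOn_zero (D : Divisor K F) :
    VanishesOn (0 : ↥(repartitions K F) →ₗ[K] K) D := by
  simp [VanishesOn]

theorem Duality.fsmul_smul (a : K) (x : F) (ω : ↥(repartitions K F) →ₗ[K] K) :
    fsmul (a • x) ω = a • fsmul x ω := by
  rw [Algebra.smul_def, fsmul_mul, fsmul_algebraMap]

theorem Duality.degree_nsmul_pt (n : ℕ) (v : Place K F) :
    Divisor.degree (n • pt v) = n * v.deg := by
  rw [map_nsmul, degree_pt, nsmul_eq_mul]

/-- `h1 (-(n • pt v))` for `n ≥ 1`. -/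
theorem Duality.h1_neg_nsmul_pt [IsFF K F] (v : Place K F) {n : ℕ} (hn : 1 ≤ n) :
    (h1 (-(n • pt v)) : ℤ) = n * v.deg - ell (0 : Divisor K F) + genusFF K F := by
  have hdeg : Divisor.degree (-(n • pt v)) = -((n : ℤ) * v.deg) := by
    rw [map_neg, Duality.degree_nsmul_pt]
  have hpos : 0 < v.deg := deg_pos v
  have hneg : Divisor.degree (-(n • pt v)) < 0 := by
    rw [hdeg]
    have : (0 : ℤ) < (n : ℤ) * v.deg := by positivity
    omega
  have h0 := ell_eq_zero_of_degree_neg hneg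
  have hrr := riemann_roch_h1 (-(n • pt v))
  rw [h0, hdeg] at hrr
  push_cast at hrr ⊢
  linarith

/-- `h1 D = -deg D - ℓ(0) + g > 0` for `deg D` very negative (`riemann_roch_h1`,
`ell_eq_zero_of_degree_neg`, `D = -(n • pt v)`); then use `finrank_omegaOf`. -/
theorem exists_weilDiff_ne_zero [IsFF K F] : ∃ ω ∈ weilDiff K F, ω ≠ 0 := by
  obtain ⟨v⟩ := IsPreFF.nonempty (K := K) (F := F)
  set n : ℕ := ell (0 : Divisor K F) + 1 with hn
  have h := Duality.h1_neg_nsmul_pt v (n := n) (by omega)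
  have hpos : 0 < v.deg := deg_pos v
  have hmul : (n : ℤ) ≤ n * v.deg := by
    have : (1 : ℤ) ≤ v.deg := by exact_mod_cast hpos
    nlinarith [Int.natCast_nonneg n]
  have hh : 0 < h1 (-(n • pt v)) := by
    have : (0 : ℤ) < h1 (-(n • pt v)) := by
      rw [h]
      have : (n : ℤ) = ell (0 : Divisor K F) + 1 := by rw [hn]; push_cast; ring
      have hg : (0 : ℤ) ≤ genusFF K F := Int.natCast_nonneg _
      linarith
    exact_mod_cast this
  rw [← finrank_omegaOf] at hh
  obtain ⟨ω, hω⟩ := (Module.finrank_pos_iff_exists_ne_zero (R := K)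
    (M := ↥(omegaOf (-(n • pt v))))).mp hh
  exact ⟨ω.1, Duality.mem_weilDiff_of_vanishesOn ω.2, fun h0 => hω (Subtype.ext h0)⟩

/-- For `x ∈ L(W + B)` and `ω` vanishing on `𝔸(W)`, `x ω` vanishes on `𝔸(-B)`. -/
theorem vanishesOn_fsmul_of_mem_L [HasPrincipalDivisors K F]
    {ω : ↥(repartitions K F) →ₗ[K] K} {W B : Divisor K F} (hω : VanishesOn ω W) {x : F}
    (hx : x ∈ riemannRochSpace (W + B)) : VanishesOn (fsmul x ω) (-B) := by
  rcases eq_or_ne x 0 with rfl | hx0
  · rw [Duality.fsmul_zero_left]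
    exact Duality.vanishesOn_zero _
  · have h1 : VanishesOn (fsmul x ω) (W + divOf x) := (vanishesOn_fsmul_iff hx0 ω W).mpr hω
    rcases mem_L_iff.mp hx with h | h
    · exact absurd h hx0
    · refine h1.mono ?_
      have : -B + 0 ≤ -B + (divOf x + (W + B)) := add_le_add_right h (-B)
      calc -B = -B + 0 := (add_zero _).symm
        _ ≤ -B + (divOf x + (W + B)) := this
        _ = W + divOf x := by abel

/-- The map `L(W + B) → Ω(-B)`, `x ↦ x ω`. -/
noncomputable def Duality.mulMap [HasPrincipalDivisors K F]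
    {ω : ↥(repartitions K F) →ₗ[K] K} {W : Divisor K F} (hω : VanishesOn ω W) (B : Divisor K F) :
    riemannRochSpace (W + B) →ₗ[K] omegaOf (-B) where
  toFun x := ⟨fsmul (x : F) ω, vanishesOn_fsmul_of_mem_L hω x.2⟩
  map_add' x y := Subtype.ext (by simp [fsmul_add])
  map_smul' a x := Subtype.ext (by simp [Duality.fsmul_smul])

theorem Duality.mulMap_injective [HasPrincipalDivisors K F]
    {ω : ↥(repartitions K F) →ₗ[K] K} {W : Divisor K F} (hω : VanishesOn ω W) (B : Divisor K F)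
    (hne : ω ≠ 0) : Function.Injective (Duality.mulMap hω B) := by
  rw [injective_iff_map_eq_zero]
  intro x hx
  have h : fsmul (x : F) ω = 0 := congrArg Subtype.val hx
  by_contra hx0
  have hx0' : (x : F) ≠ 0 := fun h0 => hx0 (Subtype.ext h0)
  exact hne ((fsmul_eq_zero_iff hx0' ω).mp h)

/-- Two injective maps into a space of too small dimension have a common nonzero value. -/
theorem Duality.exists_common {k V A B : Type*} [Field k] [AddCommGroup V] [Module k V]
    [AddCommGroup A] [Module k A] [AddCommGroup B] [Module k B] [FiniteDimensional k V]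
    (f : A →ₗ[k] V) (g : B →ₗ[k] V) (hf : Function.Injective f) (hg : Function.Injective g)
    (h : Module.finrank k V < Module.finrank k A + Module.finrank k B) :
    ∃ (a : A) (b : B), a ≠ 0 ∧ f a = g b := by
  have hf₁ : Module.finrank k (LinearMap.range f) = Module.finrank k A :=
    LinearMap.finrank_range_of_inj hf
  have hf₂ : Module.finrank k (LinearMap.range g) = Module.finrank k B :=
    LinearMap.finrank_range_of_inj hg
  have hsum := Submodule.finrank_sup_add_finrank_inf_eq (LinearMap.range f) (LinearMap.range g)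
  have hle : Module.finrank k ↥(LinearMap.range f ⊔ LinearMap.range g) ≤ Module.finrank k V :=
    Submodule.finrank_le _
  have hinf : 0 < Module.finrank k ↥(LinearMap.range f ⊓ LinearMap.range g) := by omega
  obtain ⟨η, hη⟩ := Module.finrank_pos_iff_exists_ne_zero.mp hinf
  obtain ⟨⟨a, ha⟩, ⟨b, hb⟩⟩ := Submodule.mem_inf.mp η.2
  refine ⟨a, b, ?_, ha.trans hb.symm⟩
  rintro rfl
  rw [map_zero] at ha
  exact hη (Subtype.ext ha.symm)

/-- `dim_F Ω = 1`. Take `Wᵢ` with `ωᵢ ∈ Ω(Wᵢ)` (`ω₂ ≠ 0` w.l.o.g.). The maps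
`L(Wᵢ + B) → Ω(-B)`, `x ↦ x ωᵢ` are injective; for `B = n • pt v`, `n` large,
`ℓ(W₁ + B) + ℓ(W₂ + B) > h1 (-B)` (`riemann_ineq`, `riemann_roch_h1`), so the images meet:
`x₁ ω₁ = x₂ ω₂ ≠ 0`. -/
theorem exists_fsmul_eq [IsFF K F] {ω₁ ω₂ : ↥(repartitions K F) →ₗ[K] K}
    (h₁ : ω₁ ∈ weilDiff K F) (h₂ : ω₂ ∈ weilDiff K F) (hne : ω₁ ≠ 0) :
    ∃ f : F, ω₂ = fsmul f ω₁ := by
  rcases eq_or_ne ω₂ 0 with rfl | hne₂
  · exact ⟨0, (Duality.fsmul_zero_left _).symm⟩
  obtain ⟨W₁, hW₁⟩ := h₁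
  obtain ⟨W₂, hW₂⟩ := h₂
  obtain ⟨v⟩ := IsPreFF.nonempty (K := K) (F := F)
  set g : ℤ := (genusFF K F : ℤ) with hg
  set l0 : ℤ := (ell (0 : Divisor K F) : ℤ) with hl0
  set n : ℕ := (3 * g - Divisor.degree W₁ - Divisor.degree W₂).toNat + 1 with hn
  set B : Divisor K F := n • pt v with hB
  have hpos : 0 < v.deg := deg_pos v
  have hdegB : Divisor.degree B = n * v.deg := Duality.degree_nsmul_pt n v
  have hnB : (n : ℤ) ≤ Divisor.degree B := by
    rw [hdegB]
    have : (1 : ℤ) ≤ v.deg := by exact_mod_cast hpos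
    nlinarith [Int.natCast_nonneg n]
  have hn' : 3 * g - Divisor.degree W₁ - Divisor.degree W₂ < n := by
    rw [hn]
    push_cast
    have := Int.self_le_toNat (3 * g - Divisor.degree W₁ - Divisor.degree W₂)
    omega
  have hh1 : (h1 (-B) : ℤ) = Divisor.degree B - l0 + g := by
    rw [hdegB]
    exact Duality.h1_neg_nsmul_pt v (n := n) (by omega)
  have hi₁ := riemann_ineq (W₁ + B)
  have hi₂ := riemann_ineq (W₂ + B)
  rw [map_add] at hi₁ hi₂
  have hl0pos : (1 : ℤ) ≤ l0 := by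
    rw [hl0]; exact_mod_cast one_le_ell_zero (K := K) (F := F)
  have hcount : h1 (-B) < ell (W₁ + B) + ell (W₂ + B) := by
    have : (h1 (-B) : ℤ) < ell (W₁ + B) + ell (W₂ + B) := by
      rw [hh1]
      linarith
    exact_mod_cast this
  rw [← finrank_omegaOf] at hcount
  obtain ⟨x₁, x₂, hx₁0, hx⟩ := Duality.exists_common (k := K) (V := ↥(omegaOf (-B)))
    (A := ↥(riemannRochSpace (W₁ + B))) (B := ↥(riemannRochSpace (W₂ + B)))
    (Duality.mulMap hW₁ B) (Duality.mulMap hW₂ B)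
    (Duality.mulMap_injective hW₁ B hne) (Duality.mulMap_injective hW₂ B hne₂) hcount
  have e : fsmul (x₁ : F) ω₁ = fsmul (x₂ : F) ω₂ := congrArg Subtype.val hx
  have hx₁0' : (x₁ : F) ≠ 0 := fun h0 => hx₁0 (Subtype.ext h0)
  have hη' : fsmul (x₁ : F) ω₁ ≠ 0 := fun h0 => hne ((fsmul_eq_zero_iff hx₁0' ω₁).mp h0)
  have hx₂0 : (x₂ : F) ≠ 0 := by
    intro h0
    rw [h0, Duality.fsmul_zero_left] at e
    exact hη' e
  refine ⟨(x₂ : F)⁻¹ * x₁, ?_⟩
  rw [fsmul_mul, e, ← fsmul_mul, inv_mul_cancel₀ hx₂0, fsmul_one]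

/-- The divisor of a nonzero Weil differential: degrees of `D` with `VanishesOn ω D` are bounded
(`exists_h1_eq_zero`, `finrank_omegaOf`); take one of maximal degree and use `VanishesOn.sup`. -/
theorem exists_divisor_weilDiff [IsFF K F] {ω : ↥(repartitions K F) →ₗ[K] K}
    (h : ω ∈ weilDiff K F) (hne : ω ≠ 0) :
    ∃ W : Divisor K F, ∀ D : Divisor K F, VanishesOn ω D ↔ D ≤ W := by
  obtain ⟨D₀, hD₀⟩ := h
  obtain ⟨c, hc⟩ := exists_h1_eq_zero (K := K) (F := F)
  have hbound : ∀ D : Divisor K F, VanishesOn ω D → Divisor.degree D < c := by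
    intro D hD
    by_contra hcon
    have h0 := hc D (not_lt.mp hcon)
    rw [← finrank_omegaOf] at h0
    have hsub : Subsingleton ↥(omegaOf D) := Module.finrank_zero_iff.mp h0
    have : (⟨ω, hD⟩ : ↥(omegaOf D)) = 0 := Subsingleton.elim _ _
    exact hne (congrArg Subtype.val this)
  obtain ⟨d, ⟨W, hW, hWd⟩, hmax⟩ :=
    Int.exists_greatest_of_bdd (P := fun d => ∃ D : Divisor K F, VanishesOn ω D ∧
      Divisor.degree D = d) ⟨c, fun z ⟨D, hD, hz⟩ => hz ▸ (hbound D hD).le⟩ ⟨_, D₀, hD₀, rfl⟩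
  refine ⟨W, fun D => ⟨fun hD => ?_, fun hD => hW.mono hD⟩⟩
  have hsup : VanishesOn ω (W ⊔ D) := hW.sup hD
  have h1 : Divisor.degree (W ⊔ D) ≤ d := hmax _ ⟨_, hsup, rfl⟩
  have h2 : Divisor.degree W ≤ Divisor.degree (W ⊔ D) := degree_mono le_sup_left
  have h3 : W ⊔ D - W = 0 := by
    apply eq_zero_of_nonneg_of_degree
    · exact sub_nonneg.mpr le_sup_left
    · rw [map_sub]; omega
  have h4 : W ⊔ D = W := sub_eq_zero.mp h3
  exact h4 ▸ le_sup_right

/-- `L(W - D) ≃ Ω(D)`, `x ↦ x ω`. -/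
theorem exists_L_equiv_omegaOf [IsFF K F] {ω : ↥(repartitions K F) →ₗ[K] K} {W : Divisor K F}
    (hne : ω ≠ 0) (hW : ∀ D : Divisor K F, VanishesOn ω D ↔ D ≤ W) (D : Divisor K F) :
    Nonempty (riemannRochSpace (W - D) ≃ₗ[K] omegaOf D) := by
  have hωW : VanishesOn ω W := (hW W).mpr le_rfl
  obtain ⟨B, hB⟩ : ∃ B : Divisor K F, B = -D := ⟨_, rfl⟩
  have hD : D = -B := by rw [hB, neg_neg]
  have hWD : W - D = W + B := by rw [hB, sub_eq_add_neg]
  rw [hWD, hD]
  refine ⟨LinearEquiv.ofBijective (Duality.mulMap hωW B)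
    ⟨Duality.mulMap_injective hωW B hne, ?_⟩⟩
  rintro ⟨η, hη⟩
  obtain ⟨f, hf⟩ := exists_fsmul_eq (Duality.mem_weilDiff_of_vanishesOn hωW)
    (Duality.mem_weilDiff_of_vanishesOn hη) hne
  have hfL : f ∈ riemannRochSpace (W + B) := by
    rcases eq_or_ne f 0 with rfl | hf0
    · exact Submodule.zero_mem _
    · rw [mem_L_iff]
      right
      have h1 : VanishesOn (fsmul f ω) ((-B - divOf f) + divOf f) := by
        rw [sub_add_cancel, ← hf]
        exact hη
      have h2 : -B - divOf f ≤ W := (hW _).mp ((vanishesOn_fsmul_iff hf0 ω _).mp h1)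
      have h3 : (-B - divOf f) + (B + divOf f) ≤ W + (B + divOf f) :=
        add_le_add_left h2 _
      calc (0 : Divisor K F) = (-B - divOf f) + (B + divOf f) := by abel
        _ ≤ W + (B + divOf f) := h3
        _ = divOf f + (W + B) := by abel
  exact ⟨⟨f, hfL⟩, Subtype.ext hf.symm⟩

/-- Canonical divisors. -/
def IsCanonical (W : Divisor K F) : Prop := ∀ D : Divisor K F, h1 D = ell (W - D)

theorem exists_isCanonical [IsFF K F] : ∃ W : Divisor K F, IsCanonical W := by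
  obtain ⟨ω, hω, hne⟩ := exists_weilDiff_ne_zero (K := K) (F := F)
  obtain ⟨W, hW⟩ := exists_divisor_weilDiff hω hne
  refine ⟨W, fun D => ?_⟩
  obtain ⟨e⟩ := exists_L_equiv_omegaOf hne hW D
  rw [← finrank_omegaOf, ell]
  exact e.finrank_eq.symm

end Fermat.Agent.Lib.RR
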