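import Fermat.Agent.Lib.RR.Riemann

/-!
# RR task R6: `H¹(D)` is finite dimensional and `ℓ(D) - i(D) = deg D + ℓ(0) - g`.

`D₀` from `exists_max`. For `D ≥ D₀`, `deg - ℓ` is constant (`ell_le_of_le`), so by
`finrank_ker_H1map` the map `H¹(D) → H¹(D + v)` is injective. By `induction_le` all
`H¹(D₀) → H¹(D₁)` (`D₁ ≥ D₀`) are injective; every `α` lies in some `𝔸(D₁)`
(`exists_le_mem_repartitionsOf`), hence `H¹(D₀) = 0`.
Finiteness for all `D`: `induction_ge` from `D ⊔ D₀` with `finite_ker_H1map`.
-/

set_option autoImplicit false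

namespace Fermat.Agent.Lib.RR

open AlgebraicCurve

variable {K F : Type*} [Field K] [Field F] [Algebra K F] [IsFF K F]

/-- Above a divisor where `deg - ℓ` is maximal, one step maps of `H¹` are injective. -/
theorem H1_injective_step {D₀ : Divisor K F}
    (hmax : ∀ D : Divisor K F, Divisor.degree D - ell D ≤ Divisor.degree D₀ - ell D₀)
    (E : Divisor K F) (hE : D₀ ≤ E) (v : Place K F) :
    Function.Injective (H1map (le_add_pt E v)) := by
  have h1 := ell_le_of_le hE
  have h2 := hmax E
  have h3 := hmax (E + pt v)
  have h4 := ell_le_of_le (hE.trans (le_add_pt E v))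
  have h5 := finrank_ker_H1map E v inferInstance
  have h6 : Divisor.degree (E + pt v) = Divisor.degree E + v.deg := by
    rw [map_add, degree_pt]
  have h7 : Module.finrank K (LinearMap.ker (H1map (le_add_pt E v))) = 0 := by
    omega
  have := finite_ker_H1map E v
  rw [← LinearMap.ker_eq_bot]
  exact Submodule.finrank_eq_zero.mp h7

theorem H1_injective_of_le {D₀ : Divisor K F}
    (hmax : ∀ D : Divisor K F, Divisor.degree D - ell D ≤ Divisor.degree D₀ - ell D₀)
    {D D₁ : Divisor K F} (hD : D₀ ≤ D) (h : D ≤ D₁) :
    Function.Injective (H1map h) := by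
  have key : ∀ h' : D ≤ D₁, Function.Injective (H1map h') := by
    refine induction_le (P := fun E => ∀ h' : D ≤ E, Function.Injective (H1map h')) h ?_ ?_
    · intro h' x y hxy
      induction x using Submodule.Quotient.induction_on with
      | _ a =>
        induction y using Submodule.Quotient.induction_on with
        | _ b => simpa [H1map_mk] using hxy
    · intro E v hDE hE h'
      have hc := H1map_comp hDE (le_add_pt E v)
      have : H1map h' = (H1map (le_add_pt E v)).comp (H1map hDE) := hc.symm
      rw [this, LinearMap.coe_comp]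
      exact (H1_injective_step hmax E (hD.trans hDE) v).comp (hE hDE)
  exact key h

theorem exists_H1_subsingleton : ∃ D₀ : Divisor K F, ∀ D : Divisor K F, D₀ ≤ D →
    Subsingleton (H1 D) := by
  obtain ⟨D₀, hmax⟩ := exists_max (K := K) (F := F)
  refine ⟨D₀, fun D hD => ?_⟩
  have hz : ∀ x : H1 D, x = 0 := by
    intro x
    induction x using Submodule.Quotient.induction_on with
    | _ α =>
      obtain ⟨D₁, hDD₁, hα⟩ := exists_le_mem_repartitionsOf α D
      apply H1_injective_of_le hmax hD hDD₁
      rw [H1map_mk, map_zero, Submodule.Quotient.mk_eq_zero]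
      exact Submodule.mem_sup_left hα
  exact ⟨fun x y => (hz x).trans (hz y).symm⟩

instance instFiniteH1 (D : Divisor K F) : Module.Finite K (H1 D) := by
  obtain ⟨D₀, h₀⟩ := exists_H1_subsingleton (K := K) (F := F)
  have hle : D ≤ D ⊔ D₀ := le_sup_left
  refine induction_ge (P := fun E => Module.Finite K (H1 E)) hle ?_ ?_
  · have := h₀ (D ⊔ D₀) le_sup_right
    infer_instance
  · intro E v _ hfin
    have := hfin
    have := finite_ker_H1map E v
    have : Module.Finite K (H1 E ⧸ LinearMap.ker (H1map (le_add_pt E v))) :=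
      Module.Finite.equiv
        ((H1map (le_add_pt E v)).quotKerEquivOfSurjective
          (H1map_surjective (le_add_pt E v))).symm
    exact Module.Finite.of_submodule_quotient (LinearMap.ker (H1map (le_add_pt E v)))

theorem h1_antitone {D D' : Divisor K F} (h : D ≤ D') : h1 D' ≤ h1 D :=
  LinearMap.finrank_le_finrank_of_surjective (H1map_surjective h)

theorem euler_add_pt (D : Divisor K F) (v : Place K F) :
    (ell (D + pt v) : ℤ) - h1 (D + pt v) = ell D - h1 D + v.deg := by
  have h5 := finrank_ker_H1map D v inferInstance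
  have h6 := LinearMap.finrank_range_add_finrank_ker (H1map (le_add_pt D v))
  rw [LinearMap.range_eq_top.mpr (H1map_surjective (le_add_pt D v)), finrank_top] at h6
  unfold h1
  omega

/-- Riemann-Roch, first form. -/
theorem riemann_roch_h1 (D : Divisor K F) :
    (ell D : ℤ) - h1 D = Divisor.degree D + ell (0 : Divisor K F) - genusFF K F := by
  have h := eq_of_forall_add_pt
    (fun E : Divisor K F => (ell E : ℤ) - h1 E - Divisor.degree E)
    (fun E v => by
      have := euler_add_pt E v
      simp only [map_add, degree_pt]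
      omega) D 0
  simp only [map_zero, h1_zero] at h
  omega

/-- Riemann's inequality with the genus. -/
theorem riemann_ineq (D : Divisor K F) :
    Divisor.degree D + ell (0 : Divisor K F) - genusFF K F ≤ ell D := by
  have := riemann_roch_h1 D
  omega

/-- There is a constant `c` with `H¹(D) = 0` for `deg D ≥ c`
(`c = deg D₀ + g`: then `ℓ(D - D₀) > 0`, so `D + div z ≥ D₀`). -/
theorem exists_h1_eq_zero : ∃ c : ℤ, ∀ D : Divisor K F, c ≤ Divisor.degree D → h1 D = 0 := by
  obtain ⟨D₀, h₀⟩ := exists_H1_subsingleton (K := K) (F := F)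
  refine ⟨Divisor.degree D₀ + genusFF K F, fun D hD => ?_⟩
  have h1' := riemann_ineq (D - D₀)
  have h2 := one_le_ell_zero (K := K) (F := F)
  have h3 : 0 < ell (D - D₀) := by
    rw [map_sub] at h1'
    omega
  obtain ⟨z, hz0, hz⟩ := ell_pos_iff.mp h3
  rcases mem_L_iff.mp hz with h | h
  · exact absurd h hz0
  · have hle : D₀ ≤ D + divOf z := by
      have : 0 ≤ D + divOf z - D₀ := by
        have e : D + divOf z - D₀ = divOf z + (D - D₀) := by abel
        rw [e]; exact h
      exact sub_nonneg.mp this
    have := h₀ _ hle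
    rw [← h1_add_divOf D hz0]
    unfold h1
    exact Module.finrank_zero_of_subsingleton

end Fermat.Agent.Lib.RR
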