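import Fermat.Agent.Lib.RR.Step

/-!
# RR task R3: `L(D)` is finite dimensional; elementary bounds. Uses only `exists_lead`,
`L_eq_bot_of_degree_neg` and induction on divisors.
-/

set_option autoImplicit false

namespace Fermat.Agent.Lib.RR

open AlgebraicCurve

variable {K F : Type*} [Field K] [Field F] [Algebra K F] [IsPreFF K F]

/-- One step: finiteness goes up. -/
theorem LFinite_step (E : Divisor K F) (v : Place K F)
    (h : Module.Finite K (riemannRochSpace E)) :
    Module.Finite K (riemannRochSpace (E + pt v)) := by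
  obtain ⟨φ, hφ⟩ := exists_lead E v
  have h1 : Module.Finite K (LinearMap.ker φ) := by
    let ψ : LinearMap.ker φ →ₗ[K] riemannRochSpace E :=
      { toFun := fun f => ⟨(f : riemannRochSpace (E + pt v)), (hφ f.1).1 f.2⟩
        map_add' := fun _ _ => rfl
        map_smul' := fun _ _ => rfl }
    apply Module.Finite.of_injective ψ
    intro a b hab
    apply Subtype.ext
    apply Subtype.ext
    exact congrArg (fun x : riemannRochSpace E => (x : F)) hab
  have h2 : Module.Finite K (riemannRochSpace (E + pt v) ⧸ LinearMap.ker φ) :=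
    Module.Finite.equiv φ.quotKerEquivRange.symm
  exact Module.Finite.of_submodule_quotient (LinearMap.ker φ)

/-- There is a divisor of negative degree below `D`. -/
theorem LFinite_exists_le_degree_neg (D : Divisor K F) :
    ∃ D₀ : Divisor K F, D₀ ≤ D ∧ Divisor.degree D₀ < 0 := by
  obtain ⟨v⟩ := IsPreFF.nonempty (K := K) (F := F)
  have hv := deg_pos v
  refine ⟨D - Finsupp.single v ((Divisor.degree D).toNat + 1 : ℤ), ?_, ?_⟩
  · classical
    intro w
    simp only [Finsupp.sub_apply, Finsupp.single_apply]
    split_ifs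
    · have : (0 : ℤ) ≤ ((Divisor.degree D).toNat : ℤ) := Int.natCast_nonneg _
      omega
    · omega
  · rw [map_sub, Divisor.degree_single]
    have h1 : Divisor.degree D ≤ ((Divisor.degree D).toNat : ℤ) := Int.self_le_toNat _
    have h2 : (1 : ℤ) ≤ (v.deg : ℤ) := by exact_mod_cast hv
    have h3 : (0 : ℤ) ≤ ((Divisor.degree D).toNat : ℤ) := Int.natCast_nonneg _
    nlinarith

/-- Go down from `D` to a divisor of negative degree (`IsPreFF.nonempty`), then up with
`exists_lead`. -/
instance instFiniteL (D : Divisor K F) : Module.Finite K (riemannRochSpace D) := by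
  obtain ⟨D₀, hle, hdeg⟩ := LFinite_exists_le_degree_neg D
  refine induction_le (P := fun E => Module.Finite K (riemannRochSpace E)) hle ?_ ?_
  · rw [L_eq_bot_of_degree_neg hdeg]
    infer_instance
  · intro E v _ hE
    exact LFinite_step E v hE

theorem ell_eq_zero_of_degree_neg {D : Divisor K F} (h : Divisor.degree D < 0) : ell D = 0 := by
  unfold ell
  rw [L_eq_bot_of_degree_neg h]
  exact finrank_bot K F

theorem ell_mono {D D' : Divisor K F} (h : D ≤ D') : ell D ≤ ell D' :=
  Submodule.finrank_mono (L_mono h)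

theorem ell_add_pt_le (D : Divisor K F) (v : Place K F) : ell (D + pt v) ≤ ell D + v.deg := by
  obtain ⟨φ, hφ⟩ := exists_lead D v
  have h0 := LinearMap.finrank_range_add_finrank_ker φ
  have h1 : Module.finrank K (LinearMap.ker φ) ≤ ell D := by
    let ψ : LinearMap.ker φ →ₗ[K] riemannRochSpace D :=
      { toFun := fun f => ⟨(f : riemannRochSpace (D + pt v)), (hφ f.1).1 f.2⟩
        map_add' := fun _ _ => rfl
        map_smul' := fun _ _ => rfl }
    apply LinearMap.finrank_le_finrank_of_injective (f := ψ)
    intro a b hab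
    apply Subtype.ext
    apply Subtype.ext
    exact congrArg (fun x : riemannRochSpace D => (x : F)) hab
  have h2 : Module.finrank K (LinearMap.range φ) ≤ v.deg := Submodule.finrank_le _
  unfold ell at h1 ⊢
  omega

/-- `deg D - ℓ(D)` is monotone. -/
theorem ell_le_of_le {D D' : Divisor K F} (h : D ≤ D') :
    (ell D' : ℤ) - Divisor.degree D' ≤ ell D - Divisor.degree D := by
  refine induction_le
    (P := fun E => (ell E : ℤ) - Divisor.degree E ≤ ell D - Divisor.degree D) h le_rfl ?_
  intro E v _ hE
  have h1 := ell_add_pt_le E v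
  rw [map_add, degree_pt]
  have h2 : (ell (E + pt v) : ℤ) ≤ ell E + v.deg := by exact_mod_cast h1
  linarith

theorem ell_pos_iff {D : Divisor K F} : 0 < ell D ↔ ∃ f : F, f ≠ 0 ∧ f ∈ riemannRochSpace D := by
  unfold ell
  rw [Module.finrank_pos_iff_exists_ne_zero]
  constructor
  · rintro ⟨⟨f, hf⟩, h0⟩
    exact ⟨f, fun h => h0 (Subtype.ext h), hf⟩
  · rintro ⟨f, h0, hf⟩
    exact ⟨⟨f, hf⟩, fun h => h0 (congrArg Subtype.val h)⟩

theorem one_le_ell_zero : 1 ≤ ell (0 : Divisor K F) := by
  have : 0 < ell (0 : Divisor K F) := by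
    rw [ell_pos_iff]
    refine ⟨1, one_ne_zero, ?_⟩
    have := algebraMap_mem_L_zero (K := K) (F := F) 1
    rwa [map_one] at this
  exact this

omit [IsPreFF K F] in
/-- `L(0)` as a subalgebra. -/
theorem LFinite_mul_mem {f g : F} (hf : f ∈ riemannRochSpace (0 : Divisor K F))
    (hg : g ∈ riemannRochSpace (0 : Divisor K F)) :
    f * g ∈ riemannRochSpace (0 : Divisor K F) := by
  intro v
  have h1 := hf v
  have h2 := hg v
  simp only [Finsupp.coe_zero, Pi.zero_apply, WithZero.exp_zero] at h1 h2 ⊢
  rw [map_mul]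
  exact mul_le_one' h1 h2

/-- Elements of `L(0)` are algebraic over `K` (`K[f] ⊆ L(0)` is finite dimensional). -/
theorem isAlgebraic_of_mem_L_zero {f : F} (hf : f ∈ riemannRochSpace (0 : Divisor K F)) :
    IsAlgebraic K f := by
  let S : Subalgebra K F :=
    { carrier := riemannRochSpace (0 : Divisor K F)
      mul_mem' := fun ha hb => LFinite_mul_mem ha hb
      add_mem' := fun ha hb => (riemannRochSpace (0 : Divisor K F)).add_mem ha hb
      algebraMap_mem' := fun a => algebraMap_mem_L_zero a }
  have hS : Subalgebra.toSubmodule S = riemannRochSpace (0 : Divisor K F) := rfl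
  have hfg : (Subalgebra.toSubmodule S).FG := by
    rw [hS]
    exact Module.Finite.iff_fg.1 inferInstance
  exact (IsIntegral.of_mem_of_fg S hfg f hf).isAlgebraic

/-- If `K` is algebraically closed in `F` then `ℓ(0) = 1`. -/
theorem ell_zero_of_algClosedIn
    (h : ∀ f : F, IsAlgebraic K f → f ∈ Set.range (algebraMap K F)) :
    ell (0 : Divisor K F) = 1 := by
  apply le_antisymm _ one_le_ell_zero
  have h1 : (1 : F) ∈ riemannRochSpace (0 : Divisor K F) := by
    have := algebraMap_mem_L_zero (K := K) (F := F) 1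
    rwa [map_one] at this
  apply finrank_le_one (⟨1, h1⟩ : riemannRochSpace (0 : Divisor K F))
  rintro ⟨f, hf⟩
  obtain ⟨c, hc⟩ := h f (isAlgebraic_of_mem_L_zero hf)
  refine ⟨c, Subtype.ext ?_⟩
  show c • (1 : F) = f
  rw [Algebra.smul_def, mul_one, hc]

theorem ell_zero [IsAlgClosed K] : ell (0 : Divisor K F) = 1 := by
  apply ell_zero_of_algClosedIn
  intro f hf
  have hint : IsIntegral K f := hf.isIntegral
  exact minpoly.mem_range_of_degree_eq_one K f
    (IsAlgClosed.degree_eq_one_of_irreducible K (minpoly.irreducible hint))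

/-- If there is a place of degree one then `ℓ(0) = 1` (`ℓ(0) ≤ ℓ(-v) + deg v = 1`). -/
theorem ell_zero_of_deg_eq_one (v : Place K F) (hv : v.deg = 1) : ell (0 : Divisor K F) = 1 := by
  apply le_antisymm _ one_le_ell_zero
  have h1 := ell_add_pt_le (-pt v) v
  have h2 : ell (-pt v) = 0 := by
    apply ell_eq_zero_of_degree_neg
    rw [map_neg, degree_pt, hv]
    norm_num
  rw [neg_add_cancel, h2, hv] at h1
  simpa using h1

end Fermat.Agent.Lib.RR
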