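import Fermat.Agent.Lib.RR.Basic
import Fermat.Agent.S24.PlaceDeg

/-!
# RR task R2: the one-step exact sequence
`0 → L(D) → L(D+v) → k(v) → H¹(D) → H¹(D+v) → 0`.

Let `π` be a uniformiser at `v`, `n = D v + 1`.
* `lead : L(D+v) → k(v)`, `f ↦ residue (f π^n)`; kernel `L(D)`.
* `conn : k(v) → H¹(D)`, `ā ↦ class of the repartition with value a π^(-n) at v and 0 elsewhere`.
* `range lead = ker conn`, `range conn = ker (H¹(D) → H¹(D+v))`.
-/

set_option autoImplicit false

namespace Fermat.Agent.Lib.RR

open AlgebraicCurve WithZero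

variable {K F : Type*} [Field K] [Field F] [Algebra K F]

theorem Step_exists_unif (v : Place K F) : ∃ t : F, t ≠ 0 ∧ v.adicValuation t = exp (-1 : ℤ) := by
  obtain ⟨π, hπ⟩ := IsDiscreteValuationRing.exists_irreducible v.toValuationSubring
  refine ⟨π, ?_, v.adicValuation_coe_irreducible hπ⟩
  simpa [ne_eq, ZeroMemClass.coe_eq_zero] using hπ.ne_zero

theorem Step_val_zpow (v : Place K F) {t : F} (ht : v.adicValuation t = exp (-1 : ℤ)) (m : ℤ) :
    v.adicValuation (t ^ m) = exp (-m) := by
  rw [map_zpow₀, ht, ← exp_zsmul]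
  simp

theorem Step_val_mul_zpow (v : Place K F) {t : F} (ht : v.adicValuation t = exp (-1 : ℤ)) {x : F}
    {a : ℤ} (m : ℤ) (h : v.adicValuation x ≤ exp a) : v.adicValuation (x * t ^ m) ≤ exp (a - m) := by
  rw [map_mul, Step_val_zpow v ht, sub_eq_add_neg, exp_add]
  exact mul_le_mul_left h _

theorem Step_mem_iff (v : Place K F) (x : F) :
    x ∈ v.toValuationSubring ↔ v.adicValuation x ≤ 1 := by
  refine ⟨v.adicValuation_le_one_of_mem, fun h => ?_⟩
  rcases v.adicValuation_le_one_iff.mp h with rfl | h
  · exact zero_mem _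
  · by_cases hx : x = 0
    · rw [hx]; exact zero_mem _
    · exact Fermat.Agent.S24.mem_of_ord_nonneg v hx h

theorem Step_mem_max_iff (v : Place K F) (y : v.toValuationSubring) :
    y ∈ IsLocalRing.maximalIdeal v.toValuationSubring ↔ v.adicValuation (y : F) ≤ exp (-1 : ℤ) := by
  rw [Fermat.Agent.S24.mem_maximalIdeal_iff, v.adicValuation_le_exp_iff]
  simp only [neg_neg]
  constructor <;> (rintro (h | h); exact Or.inl h; exact Or.inr (by omega))

/-- the residue map as a `K`-linear map. -/
noncomputable def Step_res (v : Place K F) : v.toValuationSubring →ₗ[K] v.ResidueField :=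
  (IsScalarTower.toAlgHom K v.toValuationSubring v.ResidueField).toLinearMap

theorem Step_res_apply (v : Place K F) (a : v.toValuationSubring) :
    Step_res v a = IsLocalRing.residue _ a := rfl

theorem Step_res_surjective (v : Place K F) : Function.Surjective (Step_res v) :=
  IsLocalRing.residue_surjective

theorem Step_res_eq_zero_iff (v : Place K F) (a : v.toValuationSubring) :
    Step_res v a = 0 ↔ v.adicValuation (a : F) ≤ exp (-1 : ℤ) := by
  rw [Step_res_apply, IsLocalRing.residue_eq_zero_iff, Step_mem_max_iff]


theorem Step_add_pt_self (D : Divisor K F) (v : Place K F) : (D + pt v) v = D v + 1 := by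
  simp [pt]

theorem Step_add_pt_of_ne (D : Divisor K F) {v w : Place K F} (h : w ≠ v) :
    (D + pt v) w = D w := by
  simp [pt, h.symm]

/-- `f ↦ f t^(D v + 1)`, from `L(D + v)` to the valuation ring. -/
noncomputable def Step_psi (D : Divisor K F) (v : Place K F) {t : F}
    (ht : v.adicValuation t = exp (-1 : ℤ)) :
    riemannRochSpace (D + pt v) →ₗ[K] v.toValuationSubring where
  toFun f := ⟨(f : F) * t ^ (D v + 1), by
    rw [Step_mem_iff]
    have h := Step_val_mul_zpow v ht (D v + 1) (f.2 v)
    rwa [Step_add_pt_self, sub_self, exp_zero] at h⟩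
  map_add' f g := Subtype.ext (by simp [add_mul])
  map_smul' c f := Subtype.ext (by
    simp only [SetLike.val_smul, RingHom.id_apply, Algebra.smul_def, mul_assoc]
    rfl)

theorem Step_psi_coe (D : Divisor K F) (v : Place K F) {t : F}
    (ht : v.adicValuation t = exp (-1 : ℤ)) (f : riemannRochSpace (D + pt v)) :
    ((Step_psi D v ht f : v.toValuationSubring) : F) = (f : F) * t ^ (D v + 1) := rfl

/-- the leading coefficient map -/
noncomputable def Step_lead (D : Divisor K F) (v : Place K F) {t : F}
    (ht : v.adicValuation t = exp (-1 : ℤ)) :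
    riemannRochSpace (D + pt v) →ₗ[K] v.ResidueField :=
  (Step_res v).comp (Step_psi D v ht)

theorem Step_lead_eq_zero_iff (D : Divisor K F) (v : Place K F) {t : F} (ht0 : t ≠ 0)
    (ht : v.adicValuation t = exp (-1 : ℤ)) (f : riemannRochSpace (D + pt v)) :
    Step_lead D v ht f = 0 ↔ (f : F) ∈ riemannRochSpace D := by
  rw [Step_lead, LinearMap.comp_apply, Step_res_eq_zero_iff, Step_psi_coe]
  constructor
  · intro h w
    by_cases hw : w = v
    · subst hw
      have h2 := Step_val_mul_zpow w ht (-(D w + 1)) h
      rw [mul_assoc, ← zpow_add₀ ht0, add_neg_cancel, zpow_zero, mul_one] at h2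
      convert h2 using 2
      ring
    · have := f.2 w
      rwa [Step_add_pt_of_ne D hw] at this
  · intro h
    have h2 := Step_val_mul_zpow v ht (D v + 1) (h v)
    convert h2 using 2
    ring

/-- The leading coefficient map. -/
theorem exists_lead (D : Divisor K F) (v : Place K F) :
    ∃ φ : riemannRochSpace (D + pt v) →ₗ[K] v.ResidueField,
      ∀ f, φ f = 0 ↔ (f : F) ∈ riemannRochSpace D := by
  obtain ⟨t, ht0, ht⟩ := Step_exists_unif v
  exact ⟨Step_lead D v ht, Step_lead_eq_zero_iff D v ht0 ht⟩


open Classical in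
/-- The repartition with value `x` at `v` and `0` elsewhere, `K`-linear in `x`. -/
noncomputable def Step_single (v : Place K F) : F →ₗ[K] ↥(repartitions K F) where
  toFun x := ⟨Pi.single v x, mem_repartitions_of_finite ((Set.finite_singleton v).subset (by
    intro w hw
    by_contra hne
    apply hw
    rw [Pi.single_eq_of_ne hne]
    simp))⟩
  map_add' x y := Subtype.ext (by
    funext w
    by_cases hw : w = v
    · subst hw; simp
    · simp [Pi.single_eq_of_ne hw])
  map_smul' c x := Subtype.ext (by
    funext w
    by_cases hw : w = v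
    · subst hw; simp
    · simp [Pi.single_eq_of_ne hw])

theorem Step_single_self (v : Place K F) (x : F) :
    (Step_single (K := K) v x : Place K F → F) v = x := by
  simp [Step_single]

theorem Step_single_of_ne {v w : Place K F} (h : w ≠ v) (x : F) :
    (Step_single (K := K) v x : Place K F → F) w = 0 := by
  classical
  simp [Step_single, Pi.single_eq_of_ne h]

/-- `a ↦ class of the repartition (a t^(-(D v + 1)) at v)`. -/
noncomputable def Step_g (D : Divisor K F) (v : Place K F) (t : F) :
    v.toValuationSubring →ₗ[K] H1 D :=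
  (Submodule.mkQ _).comp ((Step_single v).comp
    ((LinearMap.mulRight K (t ^ (-(D v + 1)))).comp
      (IsScalarTower.toAlgHom K v.toValuationSubring F).toLinearMap))

theorem Step_g_apply (D : Divisor K F) (v : Place K F) (t : F) (a : v.toValuationSubring) :
    Step_g D v t a = Submodule.Quotient.mk (Step_single v ((a : F) * t ^ (-(D v + 1)))) := rfl

theorem Step_single_mem (D : Divisor K F) (v : Place K F) {x : F}
    (hx : v.adicValuation x ≤ exp (D v)) : Step_single v x ∈ repartitionsOf D := by
  intro w
  by_cases hw : w = v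
  · subst hw
    rw [Step_single_self]; exact hx
  · rw [Step_single_of_ne hw]; simp

theorem Step_ker_res_le (D : Divisor K F) (v : Place K F) {t : F}
    (ht : v.adicValuation t = exp (-1 : ℤ)) :
    LinearMap.ker (Step_res v) ≤ LinearMap.ker (Step_g D v t) := by
  intro a ha
  rw [LinearMap.mem_ker, Step_res_eq_zero_iff] at ha
  rw [LinearMap.mem_ker, Step_g_apply, Submodule.Quotient.mk_eq_zero]
  refine Submodule.mem_sup_left (Step_single_mem D v ?_)
  have h2 := Step_val_mul_zpow v ht (-(D v + 1)) ha
  convert h2 using 2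
  ring

/-- the connecting map -/
noncomputable def Step_conn (D : Divisor K F) (v : Place K F) {t : F}
    (ht : v.adicValuation t = exp (-1 : ℤ)) : v.ResidueField →ₗ[K] H1 D :=
  ((LinearMap.ker (Step_res v)).liftQ (Step_g D v t) (Step_ker_res_le D v ht)).comp
    ((Step_res v).quotKerEquivOfSurjective (Step_res_surjective v)).symm.toLinearMap

theorem Step_conn_res (D : Divisor K F) (v : Place K F) {t : F}
    (ht : v.adicValuation t = exp (-1 : ℤ)) (a : v.toValuationSubring) :
    Step_conn D v ht (Step_res v a) = Step_g D v t a := by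
  have h : ((Step_res v).quotKerEquivOfSurjective (Step_res_surjective v)).symm (Step_res v a) =
      Submodule.Quotient.mk a := by
    rw [LinearEquiv.symm_apply_eq]
    rfl
  rw [Step_conn, LinearMap.comp_apply, LinearEquiv.coe_coe, h, Submodule.liftQ_apply]


theorem Step_zpow_cancel {t : F} (ht0 : t ≠ 0) (x : F) (n : ℤ) : x * t ^ n * t ^ (-n) = x := by
  rw [mul_assoc, ← zpow_add₀ ht0, add_neg_cancel, zpow_zero, mul_one]

theorem Step_zpow_cancel' {t : F} (ht0 : t ≠ 0) (x : F) (n : ℤ) : x * t ^ (-n) * t ^ n = x := by
  rw [mul_assoc, ← zpow_add₀ ht0, neg_add_cancel, zpow_zero, mul_one]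

/-- removing the `v`-component of a repartition of `A(D + v)` gives an element of `A(D)`. -/
theorem Step_single_sub_mem (D : Divisor K F) (v : Place K F) {β : ↥(repartitions K F)}
    (hβ : β ∈ repartitionsOf (D + pt v)) :
    Step_single v ((β : Place K F → F) v) - β ∈ repartitionsOf D := by
  intro w
  show w.adicValuation ((Step_single (K := K) v ((β : Place K F → F) v) : Place K F → F) w -
    (β : Place K F → F) w) ≤ _
  by_cases hw : w = v
  · subst hw
    rw [Step_single_self, sub_self]; simp
  · rw [Step_single_of_ne hw, zero_sub, Valuation.map_neg]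
    have := hβ w
    rwa [Step_add_pt_of_ne D hw] at this

theorem Step_range_lead (D : Divisor K F) (v : Place K F) {t : F} (ht0 : t ≠ 0)
    (ht : v.adicValuation t = exp (-1 : ℤ)) :
    LinearMap.range (Step_lead D v ht) = LinearMap.ker (Step_conn D v ht) := by
  apply le_antisymm
  · rintro _ ⟨f, rfl⟩
    rw [LinearMap.mem_ker, Step_lead, LinearMap.comp_apply, Step_conn_res, Step_g_apply,
      Step_psi_coe, Step_zpow_cancel ht0, Submodule.Quotient.mk_eq_zero]
    have hc : algebraMap F ↥(repartitions K F) (f : F) ∈ repartitionsOf (D + pt v) := fun w => f.2 w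
    have h1 := Step_single_sub_mem D v hc
    have h2 : algebraMap F ↥(repartitions K F) (f : F) ∈ principalRepartitions K F :=
      mem_principalRepartitions_iff.mpr ⟨f, rfl⟩
    have h3 := Submodule.add_mem_sup h1 h2
    rw [sub_add_cancel] at h3
    exact h3
  · intro x hx
    obtain ⟨a, rfl⟩ := Step_res_surjective v x
    rw [LinearMap.mem_ker, Step_conn_res, Step_g_apply, Submodule.Quotient.mk_eq_zero,
      Submodule.mem_sup] at hx
    obtain ⟨β, hβ, γ, hγ, hsum⟩ := hx
    obtain ⟨f, hf⟩ := mem_principalRepartitions_iff.mp hγ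
    have hpt : ∀ w, (β : Place K F → F) w + f =
        (Step_single (K := K) v ((a : F) * t ^ (-(D v + 1))) : Place K F → F) w := by
      intro w
      have := congrArg (fun z : ↥(repartitions K F) => (z : Place K F → F) w) hsum
      simp only [Subalgebra.coe_add, Pi.add_apply, hf] at this
      exact this
    have hv : f = (a : F) * t ^ (-(D v + 1)) - (β : Place K F → F) v := by
      have := hpt v
      rw [Step_single_self] at this
      rw [← this]; ring
    have hfL : f ∈ riemannRochSpace (D + pt v) := by
      intro w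
      by_cases hw : w = v
      · subst hw
        rw [hv, Step_add_pt_self]
        refine (Valuation.map_sub _ _ _).trans (max_le ?_ ?_)
        · have h2 := Step_val_mul_zpow w ht (-(D w + 1))
            (a := 0) (by rw [exp_zero]; exact (Step_mem_iff w _).mp a.2)
          convert h2 using 2
          ring
        · exact (hβ w).trans (exp_le_exp.mpr (by omega))
      · have := hpt w
        rw [Step_single_of_ne hw] at this
        have hfw : f = -(β : Place K F → F) w := by rw [eq_neg_iff_add_eq_zero, add_comm]; exact this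
        rw [hfw, Valuation.map_neg, Step_add_pt_of_ne D hw]
        exact hβ w
    refine ⟨⟨f, hfL⟩, ?_⟩
    rw [Step_lead, LinearMap.comp_apply, ← sub_eq_zero, ← map_sub, Step_res_eq_zero_iff]
    have : (((Step_psi D v ht ⟨f, hfL⟩ - a : v.toValuationSubring)) : F) =
        -((β : Place K F → F) v * t ^ (D v + 1)) := by
      show f * t ^ (D v + 1) - (a : F) = _
      rw [hv, sub_mul, Step_zpow_cancel' ht0]
      ring
    rw [this, Valuation.map_neg]
    have h2 := Step_val_mul_zpow v ht (D v + 1) (hβ v)
    convert h2 using 2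
    ring

theorem Step_range_conn (D : Divisor K F) (v : Place K F) {t : F} (ht0 : t ≠ 0)
    (ht : v.adicValuation t = exp (-1 : ℤ)) :
    LinearMap.range (Step_conn D v ht) = LinearMap.ker (H1map (le_add_pt D v)) := by
  apply le_antisymm
  · rintro _ ⟨x, rfl⟩
    obtain ⟨a, rfl⟩ := Step_res_surjective v x
    rw [LinearMap.mem_ker, Step_conn_res, Step_g_apply, H1map_mk, Submodule.Quotient.mk_eq_zero]
    refine Submodule.mem_sup_left (Step_single_mem _ v ?_)
    rw [Step_add_pt_self]
    have h2 := Step_val_mul_zpow v ht (-(D v + 1))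
      (a := 0) (by rw [exp_zero]; exact (Step_mem_iff v _).mp a.2)
    convert h2 using 2
    ring
  · intro y hy
    obtain ⟨α, rfl⟩ := Submodule.Quotient.mk_surjective _ y
    rw [LinearMap.mem_ker, H1map_mk, Submodule.Quotient.mk_eq_zero, Submodule.mem_sup] at hy
    obtain ⟨β, hβ, γ, hγ, hsum⟩ := hy
    have ha : (β : Place K F → F) v * t ^ (D v + 1) ∈ v.toValuationSubring := by
      rw [Step_mem_iff]
      have h2 := Step_val_mul_zpow v ht (D v + 1) (hβ v)
      rwa [Step_add_pt_self, sub_self, exp_zero] at h2
    refine ⟨Step_res v ⟨_, ha⟩, ?_⟩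
    rw [Step_conn_res, Step_g_apply, Step_zpow_cancel ht0, Submodule.Quotient.eq, ← hsum]
    have h1 := Step_single_sub_mem D v hβ
    have h3 := Submodule.add_mem_sup h1 (neg_mem hγ)
    convert h3 using 1
    abel

/-- The full exact sequence. -/
theorem exists_lead_conn [HasPrincipalDivisors K F] (D : Divisor K F) (v : Place K F) :
    ∃ (φ : riemannRochSpace (D + pt v) →ₗ[K] v.ResidueField) (δ : v.ResidueField →ₗ[K] H1 D),
      (∀ f, φ f = 0 ↔ (f : F) ∈ riemannRochSpace D) ∧
      LinearMap.range φ = LinearMap.ker δ ∧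
      LinearMap.range δ = LinearMap.ker (H1map (le_add_pt D v)) := by
  obtain ⟨t, ht0, ht⟩ := Step_exists_unif v
  exact ⟨Step_lead D v ht, Step_conn D v ht, Step_lead_eq_zero_iff D v ht0 ht,
    Step_range_lead D v ht0 ht, Step_range_conn D v ht0 ht⟩


theorem finite_ker_H1map [IsPreFF K F] (D : Divisor K F) (v : Place K F) :
    Module.Finite K (LinearMap.ker (H1map (le_add_pt D v))) := by
  obtain ⟨φ, δ, -, -, h⟩ := exists_lead_conn D v
  rw [← h]
  infer_instance

/-- Dimension count (rank-nullity applied three times). -/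
theorem finrank_ker_H1map [IsPreFF K F] (D : Divisor K F) (v : Place K F)
    (hfin : Module.Finite K (riemannRochSpace (D + pt v))) :
    Module.finrank K (LinearMap.ker (H1map (le_add_pt D v))) + ell (D + pt v) = v.deg + ell D := by
  obtain ⟨φ, δ, h1, h2, h3⟩ := exists_lead_conn D v
  have hδ := LinearMap.finrank_range_add_finrank_ker δ
  have hφ := LinearMap.finrank_range_add_finrank_ker φ
  have hker : LinearMap.ker φ =
      Submodule.comap (riemannRochSpace (D + pt v)).subtype (riemannRochSpace D) := by
    ext f
    rw [LinearMap.mem_ker, h1]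
    rfl
  have hk : Module.finrank K (LinearMap.ker φ) = ell D := by
    rw [hker]
    exact (Submodule.comapSubtypeEquivOfLe (L_mono (le_add_pt D v))).finrank_eq
  rw [← h3, ell, Place.deg]
  rw [h2] at hφ
  rw [hk] at hφ
  omega

end Fermat.Agent.Lib.RR
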