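import Fermat.Agent.Lib.RR.H1

/-!
# RR task R7: Weil differentials.
-/

set_option autoImplicit false

namespace Fermat.Agent.Lib.RR

open AlgebraicCurve

variable {K F : Type*} [Field K] [Field F] [Algebra K F]

/-- `ω` vanishes on `𝔸(D) + F`. -/
def VanishesOn (ω : ↥(repartitions K F) →ₗ[K] K) (D : Divisor K F) : Prop :=
  repartitionsOf D ⊔ principalRepartitions K F ≤ LinearMap.ker ω

theorem weilDiff_aux_mono {ω : ↥(repartitions K F) →ₗ[K] K} {D D' : Divisor K F} (h : D ≤ D')
    (hω : VanishesOn ω D') : VanishesOn ω D :=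
  (sup_le_sup_right (repartitionsOf_mono h) _).trans hω

theorem weilDiff_aux_add {ω ω' : ↥(repartitions K F) →ₗ[K] K} {D : Divisor K F}
    (h : VanishesOn ω D) (h' : VanishesOn ω' D) : VanishesOn (ω + ω') D := by
  intro x hx
  have h1 : ω x = 0 := h hx
  have h2 : ω' x = 0 := h' hx
  simp [LinearMap.mem_ker, h1, h2]

theorem weilDiff_aux_smul {ω : ↥(repartitions K F) →ₗ[K] K} {D : Divisor K F} (c : K)
    (h : VanishesOn ω D) : VanishesOn (c • ω) D := by
  intro x hx
  have h1 : ω x = 0 := h hx
  simp [LinearMap.mem_ker, h1]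

variable (K F) in
/-- Weil differentials: linear forms on the repartitions vanishing on some `𝔸(D) + F`. -/
def weilDiff : Submodule K (↥(repartitions K F) →ₗ[K] K) where
  carrier := {ω | ∃ D : Divisor K F, VanishesOn ω D}
  zero_mem' := ⟨0, by simp [VanishesOn]⟩
  add_mem' := by
    rintro ω ω' ⟨D, h⟩ ⟨D', h'⟩
    exact ⟨D ⊓ D', weilDiff_aux_add (weilDiff_aux_mono inf_le_left h)
      (weilDiff_aux_mono inf_le_right h')⟩
  smul_mem' := by
    rintro c ω ⟨D, h⟩
    exact ⟨D, weilDiff_aux_smul c h⟩

/-- `Ω(D)`: the Weil differentials vanishing on `𝔸(D) + F`. -/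
def omegaOf (D : Divisor K F) : Submodule K (↥(repartitions K F) →ₗ[K] K) where
  carrier := {ω | VanishesOn ω D}
  zero_mem' := by simp [VanishesOn]
  add_mem' := fun h h' => weilDiff_aux_add h h'
  smul_mem' := fun c _ h => weilDiff_aux_smul c h

theorem mem_omegaOf {ω : ↥(repartitions K F) →ₗ[K] K} {D : Divisor K F} :
    ω ∈ omegaOf D ↔ VanishesOn ω D := Iff.rfl

theorem VanishesOn.mono {ω : ↥(repartitions K F) →ₗ[K] K} {D D' : Divisor K F} (h : D ≤ D')
    (hω : VanishesOn ω D') : VanishesOn ω D := weilDiff_aux_mono h hω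

/-- `𝔸(D ⊔ D') = 𝔸(D) + 𝔸(D')`. -/
theorem repartitionsOf_sup (D D' : Divisor K F) :
    repartitionsOf (D ⊔ D') = repartitionsOf D ⊔ repartitionsOf D' := by
  classical
  apply le_antisymm
  · intro α hα
    have hα' : ∀ v : Place K F,
        v.adicValuation ((α : Place K F → F) v) ≤ WithZero.exp ((D ⊔ D') v) := hα
    set β : Place K F → F := fun v => if D' v ≤ D v then (α : Place K F → F) v else 0 with hβ
    set γ : Place K F → F := fun v => if D' v ≤ D v then 0 else (α : Place K F → F) v with hγ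
    have hβ1 : ∀ v : Place K F, v.adicValuation (β v) ≤ WithZero.exp (D v) := by
      intro v
      simp only [hβ]
      split_ifs with h
      · have := hα' v
        rwa [Finsupp.sup_apply, sup_eq_left.2 h] at this
      · simp
    have hγ1 : ∀ v : Place K F, v.adicValuation (γ v) ≤ WithZero.exp (D' v) := by
      intro v
      simp only [hγ]
      split_ifs with h
      · simp
      · have := hα' v
        rwa [Finsupp.sup_apply, sup_eq_right.2 (le_of_not_ge h)] at this
    have hsum : α = (⟨β, mem_repartitions_of_forall_le_exp D β hβ1⟩ : ↥(repartitions K F)) +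
        ⟨γ, mem_repartitions_of_forall_le_exp D' γ hγ1⟩ := by
      apply Subtype.ext
      funext v
      show (α : Place K F → F) v = β v + γ v
      simp only [hβ, hγ]
      split_ifs <;> simp
    rw [hsum]
    exact Submodule.add_mem_sup hβ1 hγ1
  · exact sup_le (repartitionsOf_mono le_sup_left) (repartitionsOf_mono le_sup_right)

theorem VanishesOn.sup {ω : ↥(repartitions K F) →ₗ[K] K} {D D' : Divisor K F}
    (h : VanishesOn ω D) (h' : VanishesOn ω D') : VanishesOn ω (D ⊔ D') := by
  unfold VanishesOn at *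
  rw [repartitionsOf_sup]
  exact sup_le (sup_le (le_sup_left.trans h) (le_sup_left.trans h')) (le_sup_right.trans h)

theorem omegaOf_eq_dualAnnihilator (D : Divisor K F) :
    omegaOf D = (repartitionsOf D ⊔ principalRepartitions K F).dualAnnihilator := by
  ext ω
  rw [Submodule.mem_dualAnnihilator]
  exact Iff.rfl

/-- `Ω(D)` is the dual of `H¹(D)`. -/
theorem exists_omegaOf_equiv (D : Divisor K F) :
    Nonempty (omegaOf D ≃ₗ[K] Module.Dual K (H1 D)) :=
  ⟨(LinearEquiv.ofEq _ _ (omegaOf_eq_dualAnnihilator D)).trans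
    (Submodule.dualQuotEquivDualAnnihilator _).symm⟩

theorem finrank_omegaOf [IsFF K F] (D : Divisor K F) : Module.finrank K (omegaOf D) = h1 D := by
  obtain ⟨e⟩ := exists_omegaOf_equiv D
  rw [e.finrank_eq, Subspace.dual_finrank_eq]
  rfl

instance instFiniteOmegaOf [IsFF K F] (D : Divisor K F) : Module.Finite K (omegaOf D) := by
  obtain ⟨e⟩ := exists_omegaOf_equiv D
  exact Module.Finite.equiv e.symm

/-- The action of `F`: `(f ω)(α) = ω(f α)`. -/
noncomputable def fsmul (f : F) (ω : ↥(repartitions K F) →ₗ[K] K) :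
    ↥(repartitions K F) →ₗ[K] K :=
  ω.comp ((LinearMap.lsmul F ↥(repartitions K F) f).restrictScalars K)

@[simp] theorem fsmul_apply (f : F) (ω : ↥(repartitions K F) →ₗ[K] K) (α : ↥(repartitions K F)) :
    fsmul f ω α = ω (f • α) := rfl

theorem fsmul_one (ω : ↥(repartitions K F) →ₗ[K] K) : fsmul 1 ω = ω := by
  ext α
  simp

theorem fsmul_mul (f g : F) (ω : ↥(repartitions K F) →ₗ[K] K) :
    fsmul (f * g) ω = fsmul f (fsmul g ω) := by
  ext α
  simp only [fsmul_apply]
  rw [mul_comm, mul_smul]

theorem fsmul_add (f g : F) (ω : ↥(repartitions K F) →ₗ[K] K) :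
    fsmul (f + g) ω = fsmul f ω + fsmul g ω := by
  ext α
  simp [add_smul]

theorem fsmul_algebraMap (a : K) (ω : ↥(repartitions K F) →ₗ[K] K) :
    fsmul (algebraMap K F a) ω = a • ω := by
  ext α
  simp only [fsmul_apply, LinearMap.smul_apply]
  rw [algebraMap_smul, map_smul]

theorem fsmul_eq_zero_iff {f : F} (hf : f ≠ 0) (ω : ↥(repartitions K F) →ₗ[K] K) :
    fsmul f ω = 0 ↔ ω = 0 := by
  constructor
  · intro h
    ext α
    have := LinearMap.congr_fun h (f⁻¹ • α)
    simpa [smul_smul, hf] using this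
  · rintro rfl
    ext α
    simp

theorem weilDiff_aux_smul_mem_iff [HasPrincipalDivisors K F] {f : F} (hf : f ≠ 0)
    (D : Divisor K F) (α : ↥(repartitions K F)) :
    f • α ∈ repartitionsOf D ↔ α ∈ repartitionsOf (D + divOf f) := by
  rw [mem_repartitionsOf_iff, mem_repartitionsOf_iff]
  refine forall_congr' fun v => ?_
  have hcoe : ((f • α : ↥(repartitions K F)) : Place K F → F) v = f * (α : Place K F → F) v := rfl
  rw [hcoe]
  by_cases h0 : (α : Place K F → F) v = 0
  · simp [h0]
  · rw [Place.ord_mul v hf h0, Finsupp.add_apply, divOf_apply]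
    simp only [h0, mul_eq_zero, hf, or_self, false_or]
    constructor <;> intro h <;> omega

theorem weilDiff_aux_smul_mem_principal (f : F) {α : ↥(repartitions K F)}
    (h : α ∈ principalRepartitions K F) : f • α ∈ principalRepartitions K F := by
  rw [mem_principalRepartitions_iff] at h ⊢
  obtain ⟨g, hg⟩ := h
  refine ⟨f * g, ?_⟩
  funext v
  show f * (α : Place K F → F) v = f * g
  rw [hg]

/-- `f ω` vanishes on `𝔸(D + div f)` iff `ω` vanishes on `𝔸(D)`. -/
theorem vanishesOn_fsmul_iff [HasPrincipalDivisors K F] {f : F} (hf : f ≠ 0)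
    (ω : ↥(repartitions K F) →ₗ[K] K) (D : Divisor K F) :
    VanishesOn (fsmul f ω) (D + divOf f) ↔ VanishesOn ω D := by
  unfold VanishesOn
  constructor
  · intro h
    refine sup_le ?_ ?_
    · intro β hβ
      have h1 : f⁻¹ • β ∈ repartitionsOf (D + divOf f) := by
        rw [← weilDiff_aux_smul_mem_iff hf, smul_smul, mul_inv_cancel₀ hf, one_smul]
        exact hβ
      have h2 : fsmul f ω (f⁻¹ • β) = 0 := h (Submodule.mem_sup_left h1)
      rw [LinearMap.mem_ker]
      simpa [smul_smul, hf] using h2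
    · intro β hβ
      have h1 : f⁻¹ • β ∈ principalRepartitions K F := weilDiff_aux_smul_mem_principal _ hβ
      have h2 : fsmul f ω (f⁻¹ • β) = 0 := h (Submodule.mem_sup_right h1)
      rw [LinearMap.mem_ker]
      simpa [smul_smul, hf] using h2
  · intro h
    refine sup_le ?_ ?_
    · intro α hα
      rw [LinearMap.mem_ker, fsmul_apply]
      exact h (Submodule.mem_sup_left ((weilDiff_aux_smul_mem_iff hf D α).2 hα))
    · intro α hα
      rw [LinearMap.mem_ker, fsmul_apply]
      exact h (Submodule.mem_sup_right (weilDiff_aux_smul_mem_principal f hα))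

end Fermat.Agent.Lib.RR
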